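import Fermat.Agent.Newforms.Forms

/-!
# Forms whose coefficients are supported on the multiples of a prime

Let `r` be a prime and let `f` be a weight two cusp form of level `L` whose `q`-coefficients vanish
outside the multiples of `r`, i.e. `f` is invariant under the translation by `1 / r`.
If `r ∤ L` then `f = 0`; if `L = r L'` then `f (τ) = F (r τ)` with `F` of level `L'`.
-/

set_option autoImplicit false

noncomputable section

open ModularFormClass UpperHalfPlane CongruenceSubgroup ModularForm Matrix.SpecialLinearGroup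
open scoped MatrixGroups ModularForm

namespace Fermat.Agent.Lifting.Mult

open Fermat.Agent.Newforms
open Fermat.Agent.HeckeLift (qCoeff_at_zero eq_zero_of_qCoeff)

variable {r : ℕ}

/-- The translation by `m / r`, up to the scalar `r`. -/
def transGL (hr : r ≠ 0) (m : ℤ) : GL (Fin 2) ℝ :=
  upperTriangularGL (r : ℝ) m r
    (mul_ne_zero (by exact_mod_cast hr) (by exact_mod_cast hr))

theorem val_transGL (hr : r ≠ 0) (m : ℤ) :
    ((transGL hr m : GL (Fin 2) ℝ) : Matrix (Fin 2) (Fin 2) ℝ) = !![(r : ℝ), (m : ℝ); 0, (r : ℝ)] :=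
  rfl

theorem det_transGL (hr : r ≠ 0) (m : ℤ) : ((transGL hr m).det : ℝ) = (r : ℝ) * r := by
  rw [Matrix.GeneralLinearGroup.val_det_apply, val_transGL, Matrix.det_fin_two_of]
  ring

theorem slash_transGL_apply (hr : r ≠ 0) (m : ℤ) (F : ℍ → ℂ) (τ : ℍ) :
    ∃ τ' : ℍ, (τ' : ℂ) = (τ : ℂ) + m / r ∧ (F ∣[(2 : ℤ)] transGL hr m) τ = F τ' := by
  have hr' : (r : ℂ) ≠ 0 := by exact_mod_cast hr
  have hpos : 0 < ((transGL hr m).det : ℝ) := by
    rw [det_transGL]
    have : 0 < (r : ℝ) := by exact_mod_cast Nat.pos_of_ne_zero hr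
    positivity
  refine ⟨transGL hr m • τ, ?_, ?_⟩
  · rw [UpperHalfPlane.coe_smul_of_det_pos hpos]
    simp [UpperHalfPlane.num, UpperHalfPlane.denom, val_transGL]
    field_simp
  · have hden : UpperHalfPlane.denom (transGL hr m) τ = r := by
      simp [UpperHalfPlane.denom, val_transGL]
    rw [ModularForm.slash_apply, hden, UpperHalfPlane.σ, if_pos hpos, det_transGL hr m, abs_mul_self]
    simp only [ContinuousAlgEquiv.refl_apply]
    push_cast
    rw [zpow_one, zpow_neg, zpow_two]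
    field_simp

/-- Forms supported on multiples of `r` are invariant under the translation by `1 / r`. -/
theorem slash_transGL_eq {L : ℕ} [NeZero L] (hr : r ≠ 0) (f : CuspForm (Gamma0 L) 2)
    (hf : ∀ n, ¬ r ∣ n → qCoeff ⇑f n = 0) (m : ℤ) : ⇑f ∣[(2 : ℤ)] transGL hr m = ⇑f := by
  funext τ
  obtain ⟨τ', hτ', happ⟩ := slash_transGL_apply hr m ⇑f τ
  rw [happ]
  have h1 := CongruenceSubgroup.one_mem_strictPeriods_Gamma0 L
  have : Fact (IsCusp OnePoint.infty (gamma0GL L)) :=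
    ⟨Subgroup.isCusp_of_mem_strictPeriods one_pos h1⟩
  have hs : ∀ z : ℍ, HasSum
      (fun n => qCoeff ⇑f n • Function.Periodic.qParam 1 (z : ℂ) ^ n) (f z) := fun z =>
    UpperHalfPlane.hasSum_qExpansion one_pos
      (SlashInvariantFormClass.periodic_comp_ofComplex f h1) (CuspFormClass.holo f)
      (ModularFormClass.bdd_at_infty f) z
  refine (hs τ').unique ((hs τ).congr_fun fun n => ?_)
  by_cases hn : r ∣ n
  · obtain ⟨t, rfl⟩ := hn
    have hr' : (r : ℂ) ≠ 0 := by exact_mod_cast hr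
    have hq : Function.Periodic.qParam 1 (τ' : ℂ) ^ (r * t) =
        Function.Periodic.qParam 1 (τ : ℂ) ^ (r * t) := by
      rw [Function.Periodic.qParam, Function.Periodic.qParam, ← Complex.exp_nat_mul,
        ← Complex.exp_nat_mul, Complex.exp_eq_exp_iff_exists_int, hτ']
      refine ⟨(t : ℤ) * m, ?_⟩
      push_cast
      field_simp
    rw [hq]
  · simp [hf n hn]

/-- A form of level `L` prime to `r` supported on multiples of `r` vanishes. -/
theorem eq_zero_of_supported {L : ℕ} [NeZero L] (hr : r.Prime) (hrL : ¬ r ∣ L)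
    (f : CuspForm (Gamma0 L) 2) (hf : ∀ n, ¬ r ∣ n → qCoeff ⇑f n = 0) : f = 0 := by
  have hr0 := hr.ne_zero
  have hr2 : r ^ 2 ≠ 0 := pow_ne_zero _ hr0
  obtain ⟨a, b, hab⟩ : IsCoprime (r : ℤ) (L : ℤ) :=
    Nat.isCoprime_iff_coprime.mpr ((Nat.Prime.coprime_iff_not_dvd hr).mpr hrL)
  set x : ℤ := (a + b) * b with hx
  obtain ⟨t, ht⟩ : (r : ℤ) ∣ a + b + x * ((r : ℤ) - L) :=
    ⟨(a + b) * (a + b), by linear_combination -(a + b) * hab⟩
  let H : SL(2, ℤ) := mkSL (a - x * L) t (-(L : ℤ) * r) ((r : ℤ) - L)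
    (by linear_combination hab - (L : ℤ) * ht)
  let E : SL(2, ℤ) := mkSL 1 0 L 1 (by ring)
  let P : GL (Fin 2) ℝ := upperTriangularGL 1 b ((r : ℝ) ^ 2)
    (by rw [one_mul]; exact pow_ne_zero 2 (by exact_mod_cast hr0))
  have hP : transGL hr0 (-x) * mapGL ℝ H * transGL hr0 (-1) * mapGL ℝ E = scalarGL r * P := by
    have htR := congrArg (Int.cast : ℤ → ℝ) ht
    have habR := congrArg (Int.cast : ℤ → ℝ) hab
    push_cast at htR habR
    ext i j
    simp only [Units.val_mul, Matrix.mul_apply, Fin.sum_univ_two]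
    fin_cases i <;> fin_cases j <;>
      simp [P, H, E, val_transGL, val_scalarGL hr0]
    all_goals first
      | ring1
      | linear_combination (r : ℝ) * habR
      | linear_combination (r : ℝ) * habR + (L : ℝ) * (r : ℝ) * htR
      | linear_combination -(r : ℝ) * htR
      | linear_combination (r : ℝ) * htR
      | linear_combination (r : ℝ) * habR - (L : ℝ) * (r : ℝ) * htR
  have hFP : ⇑f ∣[(2 : ℤ)] P = ⇑f := by
    have h := congrArg (fun g => ⇑f ∣[(2 : ℤ)] g) hP
    simp only [SlashAction.slash_mul] at h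
    rw [slash_transGL_eq hr0 f hf, slash_eq_coe f _ (mapGL_mem_gamma0GL ⟨-(r : ℤ), by simp [H]⟩),
      slash_transGL_eq hr0 f hf, slash_eq_coe f _ (mapGL_mem_gamma0GL (by simp [E])),
      slash_scalarGL hr0] at h
    exact h.symm
  let Tb : SL(2, ℤ) := mkSL 1 b 0 1 (by ring)
  have hmul : heckeDiagMatrix (r ^ 2) * P = scalarGL (r ^ 2) * mapGL ℝ Tb := by
    ext i j
    fin_cases i <;> fin_cases j <;>
      simp [P, Tb, hr0, val_scalarGL hr2, Matrix.mul_apply, Fin.sum_univ_two]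
  have hD : ⇑f ∣[(2 : ℤ)] heckeDiagMatrix (r ^ 2) = ⇑f := by
    have h := congrArg (fun g => ⇑f ∣[(2 : ℤ)] g) hmul
    simp only [SlashAction.slash_mul] at h
    rw [slash_scalarGL hr2, slash_eq_coe f _ (mapGL_mem_gamma0GL (by simp [Tb]))] at h
    have h' := congrArg (fun F : ℍ → ℂ => F ∣[(2 : ℤ)] P⁻¹) (h.trans hFP.symm)
    simpa [← SlashAction.slash_mul] using h'
  have : NeZero (r ^ 2) := ⟨hr2⟩
  refine eq_zero_of_qCoeff f fun n => ?_
  induction n using Nat.strong_induction_on with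
  | _ n ih =>
    rcases Nat.eq_zero_or_pos n with rfl | hn
    · exact qCoeff_at_zero f
    have h : qCoeff ⇑(degen (r ^ 2) f) n = qCoeff ⇑f n := by
      rw [show ⇑(degen (r ^ 2) f) = ⇑f from hD]
    rw [← h, qCoeff_degen]
    split_ifs with hd
    · rw [ih _ (Nat.div_lt_self hn (Nat.one_lt_pow two_ne_zero hr.one_lt)), mul_zero]
    · rfl

/-- A form of level `r L` supported on multiples of `r` comes from level `L` by `τ ↦ r τ`. -/
theorem exists_eq_degen_of_supported {L : ℕ} [NeZero L] [NeZero r] (hr : r.Prime)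
    (f : CuspForm (Gamma0 (r * L)) 2) (hf : ∀ n, ¬ r ∣ n → qCoeff ⇑f n = 0) :
    ∃ F : CuspForm (Gamma0 L) 2, ∀ n, qCoeff ⇑f (r * n) = (r : ℂ) * qCoeff ⇑F n := by
  have hr0 := hr.ne_zero
  set G : ℍ → ℂ := ⇑f ∣[(2 : ℤ)] heckeMatrix r 0 with hG
  have hcusp : IsCuspidalFun 2 G := by
    have : ∃ g : GL (Fin 2) ℚ,
        Matrix.GeneralLinearGroup.map (Rat.castHom ℝ) g = heckeMatrix r 0 := by
      refine ⟨Matrix.GeneralLinearGroup.mkOfDetNeZero !![1, 0; 0, (r : ℚ)]
        (by simpa using hr0), ?_⟩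
      ext i j
      fin_cases i <;> fin_cases j <;>
        simp [hr0, Matrix.GeneralLinearGroup.mkOfDetNeZero]
    obtain ⟨g, hg⟩ := this
    rw [hG, ← hg]
    exact (isCuspidalFun_coe f).slash_ratMap g
  let T1 : ℤ → SL(2, ℤ) := fun m => mkSL 1 m 0 1 (by ring)
  have hGT : ∀ m : ℤ, G ∣[(2 : ℤ)] mapGL ℝ (T1 m) = G := by
    intro m
    have hmul : scalarGL r * (heckeMatrix r 0 * mapGL ℝ (T1 m)) =
        transGL hr0 m * heckeMatrix r 0 := by
      ext i j
      simp only [Units.val_mul, Matrix.mul_apply, Fin.sum_univ_two]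
      fin_cases i <;> fin_cases j <;>
        simp [T1, hr0, val_scalarGL hr0, val_transGL]
      ring
    have h := congrArg (fun g => ⇑f ∣[(2 : ℤ)] g) hmul
    simp only [SlashAction.slash_mul] at h
    rwa [slash_scalarGL hr0, slash_transGL_eq hr0 f hf] at h
  have hsmall : ∀ g : SL(2, ℤ), (L : ℤ) ∣ g 1 0 → (r : ℤ) ∣ g 0 1 →
      G ∣[(2 : ℤ)] mapGL ℝ g = G := by
    rintro g ⟨e, he⟩ ⟨t, ht⟩
    let g' : SL(2, ℤ) := mkSL (g 0 0) t ((r : ℤ) * g 1 0) (g 1 1)
      (by linear_combination det_SL g + g 1 0 * ht)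
    have hmul : heckeMatrix r 0 * mapGL ℝ g = mapGL ℝ g' * heckeMatrix r 0 := by
      have htR := congrArg (Int.cast : ℤ → ℝ) ht
      push_cast at htR
      ext i j
      fin_cases i <;> fin_cases j <;>
        simp [g', hr0, Matrix.mul_apply, Fin.sum_univ_two, htR] <;> ring
    rw [hG, ← SlashAction.slash_mul, hmul, SlashAction.slash_mul,
      slash_eq_coe f _ (mapGL_mem_gamma0GL ⟨e, by simp [g', he]; ring⟩)]
  have : Fact r.Prime := ⟨hr⟩
  have hcase : ∀ g : SL(2, ℤ), (L : ℤ) ∣ g 1 0 → ¬ (r : ℤ) ∣ g 1 1 →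
      G ∣[(2 : ℤ)] mapGL ℝ g = G := by
    intro g hg hd
    have hd' : ((g 1 1 : ℤ) : ZMod r) ≠ 0 := fun h =>
      hd ((ZMod.intCast_zmod_eq_zero_iff_dvd _ _).mp h)
    set x : ℤ := ((-((g 0 1 : ℤ) : ZMod r) / ((g 1 1 : ℤ) : ZMod r)).val : ℤ) with hx
    let g' : SL(2, ℤ) := mkSL (g 0 0 + x * g 1 0) (g 0 1 + x * g 1 1) (g 1 0) (g 1 1)
      (by linear_combination det_SL g)
    have hdvd : (r : ℤ) ∣ g' 0 1 := by
      rw [← ZMod.intCast_zmod_eq_zero_iff_dvd]
      simp only [g', coe_mkSL]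
      simp [hx, div_mul_cancel₀ _ hd']
    have hmul : mapGL ℝ g = mapGL ℝ (T1 (-x)) * mapGL ℝ g' := by
      ext i j
      fin_cases i <;> fin_cases j <;>
        simp [T1, g', Matrix.mul_apply, Fin.sum_univ_two]
    rw [hmul, SlashAction.slash_mul, hGT, hsmall g' (by simpa [g'] using hg) hdvd]
  have hinv : ∀ γ ∈ gamma0GL L, G ∣[(2 : ℤ)] γ = G := by
    rintro _ ⟨g, hg, rfl⟩
    replace hg : (L : ℤ) ∣ g 1 0 := mem_Gamma0_iff.mp hg
    by_cases hd : (r : ℤ) ∣ g 1 1
    · let g' : SL(2, ℤ) := mkSL (g 0 0) (g 0 0 + g 0 1) (g 1 0) (g 1 0 + g 1 1)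
        (by linear_combination det_SL g)
      have hc : ¬ (r : ℤ) ∣ g 1 0 + g 1 1 := by
        intro h
        have h10 : (r : ℤ) ∣ g 1 0 := by simpa using dvd_sub h hd
        have h1 : (r : ℤ) ∣ 1 := by
          rw [← det_SL g]
          exact dvd_sub (hd.mul_left _) (h10.mul_left _)
        exact hr.one_lt.ne' (by exact_mod_cast Int.eq_one_of_dvd_one (by positivity) h1)
      have hmul : mapGL ℝ g = mapGL ℝ g' * mapGL ℝ (T1 (-1)) := by
        ext i j
        fin_cases i <;> fin_cases j <;>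
          simp [T1, g', Matrix.mul_apply, Fin.sum_univ_two]
      rw [hmul, SlashAction.slash_mul, hcase g' (by simpa [g'] using hg) (by simpa [g'] using hc),
        hGT]
    · exact hcase g hg hd
  refine ⟨mkCuspForm L 2 G hcusp hinv, fun n => ?_⟩
  have hback : ⇑(degen r (mkCuspForm L 2 G hcusp hinv)) = ⇑f := by
    show G ∣[(2 : ℤ)] heckeDiagMatrix r = ⇑f
    have hmul : heckeMatrix r 0 * heckeDiagMatrix r = scalarGL r := by
      ext i j
      fin_cases i <;> fin_cases j <;>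
        simp [hr0, val_scalarGL hr0, Matrix.mul_apply, Fin.sum_univ_two]
    rw [hG, ← SlashAction.slash_mul, hmul, slash_scalarGL hr0]
  rw [← hback, qCoeff_degen, if_pos (dvd_mul_right r n), Nat.mul_div_cancel_left _ hr.pos]
  norm_num

end Fermat.Agent.Lifting.Mult
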