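import Fermat.Agent.Petersson.HeckeAdjoint
import Fermat.Agent.Lifting.Mult.Levels

/-!
# Eigenvalues of `T_r` are different from `± (r + 1)`

If `T_r f = ± (r + 1) f` for a weight two cusp form of level prime to `r`, all the terms of `T_r f`
are equal to `± f` by the case of equality in the Petersson norm, so the coefficients of `f` are
supported on multiples of `r`, hence `f = 0`.
-/

set_option autoImplicit false

noncomputable section

open ModularFormClass UpperHalfPlane CongruenceSubgroup ModularForm Matrix.SpecialLinearGroup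
open scoped MatrixGroups ModularForm ComplexConjugate

namespace Fermat.Agent.Lifting.Mult

open Fermat.Agent.Newforms
open Fermat.Agent.Petersson (inner avg Averageable heckeCorr)
open Fermat.Agent.HeckeLift (qCoeff_smul qCoeff_zero)

/-- A nonzero cusp form of level prime to `r` is not an eigenvector of `T_r` of eigenvalue
`± (r + 1)`. -/
theorem eq_zero_of_heckeT_eq {L r : ℕ} [NeZero L] (hr : r.Prime) (hrL : ¬ r ∣ L) {ε : ℂ}
    (hε : ε = 1 ∨ ε = -1) (f : CuspForm (Gamma0 L) 2)
    (hf : CuspForm.heckeTLin 2 hr hrL f = (ε * ((r : ℂ) + 1)) • f) : f = 0 := by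
  have hr0 := hr.ne_zero
  have : NeZero r := ⟨hr0⟩
  have hεc : conj ε = ε := by rcases hε with rfl | rfl <;> simp
  have hεsq : ε * ε = 1 := by rcases hε with rfl | rfl <;> simp
  have hrr : ((r : ℂ) + 1) ≠ 0 := by exact_mod_cast Nat.succ_ne_zero r
  have hcorr : heckeCorr r f f = ε * inner f f := by
    have h := Petersson.inner_heckeTLin_left hr hrL f f
    rw [hf, Petersson.inner_smul_left, map_mul, map_add, map_one, Complex.conj_natCast, hεc] at h
    exact mul_left_cancel₀ hrr (by linear_combination -h)
  set A : ℍ → ℂ := ⇑f ∣[(2 : ℤ)] heckeMatrix r 0 with hA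
  set α : GL (Fin 2) ℚ := Petersson.heckeRat hr0 with hα
  have hmap : α.map (Rat.castHom ℝ) = heckeMatrix r 0 := Petersson.map_heckeRat hr0
  have h11 : Averageable (petersson 2 f f) := Petersson.averageable_inner f f
  have hAA : petersson 2 A A = fun τ => petersson 2 f f (α.map (Rat.castHom ℝ) • τ) := by
    funext τ
    rw [hmap, hA, petersson_slash]
    simp [ModularForm.σ_heckeMatrix]
  have hA1 : Averageable (petersson 2 A f) := by
    simpa [hA, hmap] using Petersson.averageable_slash f f α
  have hA2 : Averageable (petersson 2 f A) := by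
    simpa [hA, hmap] using Petersson.averageable_slash_right f f α
  have h00 : Averageable (petersson 2 A A) := hAA ▸ h11.comp_smul α
  have hvA1 : avg (petersson 2 A f) = ε * inner f f := hcorr
  have hvA2 : avg (petersson 2 f A) = ε * inner f f := by
    have h : petersson 2 f A = fun τ => conj (petersson 2 A f τ) := funext fun τ =>
      petersson_symm 2 _ _ τ
    rw [h, Petersson.avg_conj hA1, hvA1, map_mul, hεc, Petersson.inner_conj_symm]
  have hvAA : avg (petersson 2 A A) = inner f f := by
    rw [hAA, Petersson.avg_comp_smul h11]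
    rfl
  set D : ℍ → ℂ := A - ε • ⇑f with hD
  have hexp : petersson 2 D D = petersson 2 A A + (fun τ => (-ε) * petersson 2 A f τ) +
      (fun τ => (-ε) * petersson 2 f A τ) + petersson 2 f f := by
    funext τ
    simp only [hD, petersson, Pi.sub_apply, Pi.smul_apply, smul_eq_mul, Pi.add_apply, map_sub,
      map_mul, hεc]
    linear_combination (conj (f τ) * f τ * (τ.im : ℂ) ^ (2 : ℤ)) * hεsq
  have hvD : avg (petersson 2 D D) = 0 := by
    rw [hexp, Petersson.avg_add ((h00.add (hA1.const_mul _)).add (hA2.const_mul _)) h11,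
      Petersson.avg_add (h00.add (hA1.const_mul _)) (hA2.const_mul _),
      Petersson.avg_add h00 (hA1.const_mul _), Petersson.avg_const_mul hA1,
      Petersson.avg_const_mul hA2, hvAA, hvA1, hvA2,
      show avg (petersson 2 f f) = inner f f from rfl]
    linear_combination (-2 * inner f f) * hεsq
  have hDre : petersson 2 D D = fun τ => ((‖D τ‖ ^ 2 * τ.im ^ (2 : ℤ) : ℝ) : ℂ) := by
    funext τ
    rw [petersson, ← Complex.normSq_eq_conj_mul_self, Complex.normSq_eq_norm_sq]
    push_cast
    ring
  have hDav : Averageable (petersson 2 D D) :=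
    hexp ▸ ((h00.add (hA1.const_mul _)).add (hA2.const_mul _)).add h11
  have hD0 : ∀ τ, D τ = 0 := fun τ => by
    have h0 := congrFun (Petersson.eq_zero_of_avg_eq_zero (hDre ▸ hDav)
      (fun τ => mul_nonneg (sq_nonneg _) (zpow_nonneg τ.im_pos.le _)) (hDre ▸ hvD)) τ
    simpa [zpow_ne_zero _ τ.im_ne_zero, τ.im_ne_zero] using h0
  have hAf : A = ε • ⇑f := funext fun τ => by
    have := hD0 τ
    rwa [hD, Pi.sub_apply, sub_eq_zero] at this
  have hsupp : ∀ n, ¬ r ∣ n → qCoeff ⇑f n = 0 := by
    intro n hn
    have hmul : heckeMatrix r 0 * heckeDiagMatrix r = scalarGL r := by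
      ext i j
      fin_cases i <;> fin_cases j <;>
        simp [hr0, val_scalarGL hr0, Matrix.mul_apply, Fin.sum_univ_two]
    have hcoe : ⇑(ε • degen r f) = ⇑f := by
      have h : A ∣[(2 : ℤ)] heckeDiagMatrix r = ⇑f := by
        rw [hA, ← SlashAction.slash_mul, hmul, slash_scalarGL hr0]
      rw [hAf, ModularForm.smul_slash, σ_heckeDiagMatrix] at h
      simpa [degen] using h
    rw [← hcoe, qCoeff_smul, qCoeff_degen, if_neg hn, mul_zero]
  exact eq_zero_of_supported hr hrL f hsupp

end Fermat.Agent.Lifting.Mult
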