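import Fermat.Agent.Lifting.Mult.Seq
import Fermat.Agent.Newforms.Main

/-!
# The polynomial relations of the Hecke operators on a system

Let `g` be a newform of level `M ∣ N` and `S` a finite set of primes containing those of `N`. On
the forms of level `N` with the eigenvalues `a_l(g)` for `l ∉ S`, the operators at the primes of
`S` satisfy the polynomial relations of the oldforms of `g`, and a simultaneous eigenvector of all
operators is determined by its first coefficient.
-/

set_option autoImplicit false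

noncomputable section

open ModularFormClass CongruenceSubgroup

namespace Fermat.Agent.Lifting.Mult

open Fermat.Agent.HeckeLift (qCoeff_heckeTLin qCoeff_heckeULin qCoeff_at_zero)

section RootsProd

variable {R : Type*} [CommRing R] {V W : Type*} [AddCommGroup V] [Module R V] [AddCommGroup W]
  [Module R W]

/-- `∏ (f - ρ)` over a list of scalars. -/
def rootsProd (f : Module.End R V) (l : List R) : Module.End R V :=
  (l.map fun ρ => f - algebraMap R (Module.End R V) ρ).prod

@[simp] theorem rootsProd_nil (f : Module.End R V) : rootsProd f [] = 1 := rfl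

/-- One more factor of a product over roots. -/
theorem rootsProd_cons_apply (f : Module.End R V) (ρ : R) (l : List R) (v : V) :
    rootsProd f (ρ :: l) v = f (rootsProd f l v) - ρ • rootsProd f l v := by
  simp [rootsProd, Module.algebraMap_end_apply]

@[simp] theorem rootsProd_nil_apply (f : Module.End R V) (v : V) : rootsProd f [] v = v := rfl

/-- Products over roots commute with intertwining maps. -/
theorem map_rootsProd (φ : V →ₗ[R] W) {f : Module.End R V} {g : Module.End R W}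
    (h : ∀ v, φ (f v) = g (φ v)) (l : List R) :
    ∀ v, φ (rootsProd f l v) = rootsProd g l (φ v) := by
  induction l with
  | nil => intro v; rfl
  | cons ρ l ih =>
    intro v
    rw [rootsProd_cons_apply, rootsProd_cons_apply, map_sub, map_smul, h, ih]

end RootsProd

/-- Splitting off the exact power of a prime. -/
theorem exists_eq_pow_mul {N r e : ℕ} (hN : N ≠ 0) (hr : r.Prime) (h : N.factorization r = e) :
    ∃ L, L ≠ 0 ∧ ¬ r ∣ L ∧ N = r ^ e * L :=
  ⟨N / r ^ N.factorization r, (Nat.ordCompl_pos r hN).ne', Nat.not_dvd_ordCompl hr hN,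
    h ▸ (Nat.ordProj_mul_ordCompl_eq_self N r).symm⟩

variable {N : ℕ} [NeZero N]

variable (N) in
/-- `T_r` or `U_r` on cusp forms. -/
def opC (r : Nat.Primes) : Module.End ℂ (CuspForm (Gamma0 N) 2) :=
  haveI : NeZero (r : ℕ) := ⟨r.2.ne_zero⟩
  if h : (r : ℕ) ∣ N then CuspForm.heckeULin 2 h else CuspForm.heckeTLin 2 r.2 h

variable (N) in
/-- The same on coefficient sequences. -/
def sOp (r : Nat.Primes) : Module.End ℂ (ℕ → ℂ) := if (r : ℕ) ∣ N then dil r else hop r

omit [NeZero N] in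
theorem sOp_apply (r : Nat.Primes) (a : ℕ → ℂ) (n : ℕ) : sOp N r a n =
    a (n * r) + if ¬ (r : ℕ) ∣ N ∧ (r : ℕ) ∣ n then (r : ℂ) * a (n / r) else 0 := by
  by_cases h : (r : ℕ) ∣ N <;> simp [sOp, h, hop_apply]

theorem coeffMap_opC (r : Nat.Primes) (f : CuspForm (Gamma0 N) 2) :
    coeffMap N (opC N r f) = sOp N r (coeffMap N f) := by
  have : NeZero (r : ℕ) := ⟨r.2.ne_zero⟩
  funext n
  by_cases h : (r : ℕ) ∣ N
  · simp only [opC, h, ↓reduceDIte, sOp, ↓reduceIte, coeffMap_apply, dil_apply,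
      qCoeff_heckeULin r.2]
  · simp only [opC, h, ↓reduceDIte, sOp, ↓reduceIte, coeffMap_apply, hop_apply,
      qCoeff_heckeTLin r.2]
    norm_num

/-- A form is determined by its coefficient sequence. -/
theorem coeffMap_injective : Function.Injective (coeffMap N) := fun _ _ h =>
  Newforms.eq_of_qCoeff fun n => congrFun h n

omit [NeZero N] in
theorem sOp_comm (r q : Nat.Primes) (a : ℕ → ℂ) : sOp N r (sOp N q a) = sOp N q (sOp N r a) := by
  rcases eq_or_ne r q with rfl | hne
  · rfl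
  have hne' : (r : ℕ) ≠ q := fun h => hne (Subtype.ext h)
  by_cases h1 : (r : ℕ) ∣ N <;> by_cases h2 : (q : ℕ) ∣ N <;>
    simp only [sOp, h1, h2, ↓reduceIte]
  · exact funext fun n => by simp only [dil_apply, mul_right_comm]
  · exact (hop_dil q.2 r.2 hne'.symm a).symm
  · exact hop_dil r.2 q.2 hne' a
  · exact hop_hop r.2 q.2 hne' a

theorem opC_comm (r q : Nat.Primes) (f : CuspForm (Gamma0 N) 2) :
    opC N r (opC N q f) = opC N q (opC N r f) :=
  coeffMap_injective <| by simp only [coeffMap_opC, sOp_comm]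

/-- A set of forms stable under all operators whose first coefficients vanish is zero. -/
theorem eq_zero_of_first_coeff (W : Set (CuspForm (Gamma0 N) 2))
    (h1 : ∀ f ∈ W, qCoeff ⇑f 1 = 0) (hstab : ∀ r, ∀ f ∈ W, opC N r f ∈ W) :
    ∀ f ∈ W, f = 0 := by
  suffices ∀ n, ∀ f ∈ W, qCoeff ⇑f n = 0 from fun f hf => coeffMap_injective <| by
    rw [map_zero]; exact funext fun n => this n f hf
  intro n
  induction n using Nat.strong_induction_on with
  | _ n ih =>
    intro f hf
    rcases Nat.lt_or_ge n 2 with h2 | h2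
    · interval_cases n
      · exact qCoeff_at_zero f
      · exact h1 f hf
    · obtain ⟨l, hl, m, rfl⟩ := Nat.exists_prime_and_dvd (show n ≠ 1 by omega)
      have hm : 0 < m := Nat.pos_of_ne_zero fun h => by simp [h] at h2
      have hlt : m < l * m := lt_mul_of_one_lt_left hm hl.one_lt
      have e := congrFun (coeffMap_opC ⟨l, hl⟩ f) m
      rw [sOp_apply, coeffMap_apply, ih m hlt _ (hstab ⟨l, hl⟩ f hf)] at e
      by_cases hd : ¬ l ∣ N ∧ l ∣ m
      · rw [if_pos hd, coeffMap_apply, coeffMap_apply,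
          ih (m / l) ((Nat.div_le_self m l).trans_lt hlt) f hf, mul_zero, add_zero, mul_comm] at e
        exact e.symm
      · rw [if_neg hd, coeffMap_apply, add_zero, mul_comm] at e
        exact e.symm

/-- A simultaneous eigenvector of all operators is determined by its first coefficient. -/
theorem eq_zero_of_eigen (lam : Nat.Primes → ℂ) {f : CuspForm (Gamma0 N) 2}
    (h : ∀ r, opC N r f = lam r • f) (h1 : qCoeff ⇑f 1 = 0) : f = 0 := by
  refine eq_zero_of_first_coeff {v | ∃ c : ℂ, v = c • f} ?_ ?_ f ⟨1, (one_smul ℂ f).symm⟩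
  · rintro _ ⟨c, rfl⟩
    rw [HeckeLift.qCoeff_smul, h1, mul_zero]
  · rintro r _ ⟨c, rfl⟩
    exact ⟨c * lam r, by rw [map_smul, h, smul_smul]⟩

section System

variable {M : ℕ} [NeZero M] {g : CuspForm (Gamma0 M) 2} (hg : g.IsNewform) (hMN : M ∣ N)
  {S : Finset ℕ} (hS : ∀ q ∈ S, q.Prime) (hNS : ∀ q : ℕ, q.Prime → q ∣ N → q ∈ S)

variable (N g S) in
/-- The forms with the eigenvalues of `g` outside `S`. -/
def system : Submodule ℂ (CuspForm (Gamma0 N) 2) :=
  (goodSeqs S fun l => qCoeff ⇑g l).comap (coeffMap N)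

omit [NeZero N] in
include hg hMN hNS in
theorem coeffMap_mem_goodSeqs : coeffMap M g ∈ goodSeqs S fun l => qCoeff ⇑g l := by
  intro l hl hlS
  have hlM : ¬ l ∣ M := fun h => hlS (hNS l hl (h.trans hMN))
  funext n
  simp only [hop_apply, Pi.smul_apply, coeffMap_apply, smul_eq_mul]
  rw [
    Newforms.qCoeff_prime_mul hg.1 hl]
  simp [hlM]

omit [NeZero N] [NeZero M] in
theorem mem_system_iff {f : CuspForm (Gamma0 N) 2} :
    f ∈ system N g S ↔ ∀ l : ℕ, l.Prime → l ∉ S →
      hop l (coeffMap N f) = qCoeff ⇑g l • coeffMap N f := Iff.rfl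

include hNS in
omit [NeZero M] in
/-- `opC` for `l ∉ S` in terms of sequences. -/
theorem mem_system_iff_opC {f : CuspForm (Gamma0 N) 2} :
    f ∈ system N g S ↔
      ∀ l : Nat.Primes, (l : ℕ) ∉ S → opC N l f = qCoeff ⇑g l • f := by
  have key : ∀ l : Nat.Primes, (l : ℕ) ∉ S → sOp N l = hop (l : ℕ) := fun l hlS =>
    if_neg fun h => hlS (hNS l l.2 h)
  refine mem_system_iff.trans ⟨fun h l hlS => coeffMap_injective ?_, fun h l hl hlS => ?_⟩
  · rw [coeffMap_opC, map_smul, key l hlS, h l l.2 hlS]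
  · have h' := congrArg (coeffMap N) (h ⟨l, hl⟩ hlS)
    rwa [coeffMap_opC, map_smul, key ⟨l, hl⟩ hlS] at h'

include hNS in
omit [NeZero M] in
theorem opC_mem_system (r : Nat.Primes) {f : CuspForm (Gamma0 N) 2} (hf : f ∈ system N g S) :
    opC N r f ∈ system N g S := by
  rw [mem_system_iff_opC hNS] at hf ⊢
  intro l hl
  rw [opC_comm, hf l hl, map_smul]

include hNS in
omit [NeZero M] in
/-- A product `∏ (op_r - ρ)` vanishes on the system if its first coefficient does. -/
theorem rootsProd_eq_zero (r : Nat.Primes) (l : List ℂ)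
    (h : ∀ a : ℕ → ℂ, a ∈ qSeqs N → a ∈ goodSeqs S (fun l => qCoeff ⇑g l) →
      rootsProd (sOp N r) l a 1 = 0) :
    ∀ f ∈ system N g S, rootsProd (opC N r) l f = 0 := by
  intro f hf
  refine eq_zero_of_first_coeff (rootsProd (opC N r) l '' system N g S) ?_ ?_ _ ⟨f, hf, rfl⟩
  · rintro _ ⟨v, hv, rfl⟩
    have h' := congrFun (map_rootsProd (coeffMap N) (fun w => coeffMap_opC r w) l v) 1
    rw [coeffMap_apply] at h'
    rw [h']
    exact h _ ⟨v, rfl⟩ hv
  · rintro q _ ⟨v, hv, rfl⟩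
    exact ⟨opC N q v, opC_mem_system hNS q hv,
      (map_rootsProd (opC N q) (fun w => opC_comm q r w) l v).symm⟩

include hg in
theorem hop_coeffMap {r : ℕ} (hr : r.Prime) (hrM : ¬ r ∣ M) :
    hop r (coeffMap M g) = qCoeff ⇑g r • coeffMap M g := by
  funext n
  simp only [hop_apply, Pi.smul_apply, coeffMap_apply, smul_eq_mul]
  rw [
    Newforms.qCoeff_prime_mul hg.1 hr]
  simp [hrM]

include hg in
theorem dil_coeffMap {r : ℕ} (hr : r.Prime) (hrM : r ∣ M) :
    dil r (coeffMap M g) = qCoeff ⇑g r • coeffMap M g := by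
  funext n
  simp only [dil_apply, Pi.smul_apply, coeffMap_apply, smul_eq_mul]
  rw [
    Newforms.qCoeff_prime_mul hg.1 hr]
  simp [hrM]

theorem not_dvd_of_factorization {M r : ℕ} [NeZero M] (hr : r.Prime)
    (h : M.factorization r = 0) : ¬ r ∣ M := fun hd =>
  (hr.factorization_pos_of_dvd (NeZero.ne M) hd).ne' h

include hg in
/-- At a prime exactly dividing the level the coefficient squares to one. -/
theorem qCoeff_sq_eq_one {r : ℕ} (hr : r.Prime) (h : M.factorization r = 1) :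
    qCoeff ⇑g r ^ 2 = 1 := by
  obtain ⟨M₀, -, hrM₀, hM⟩ := exists_eq_pow_mul (NeZero.ne M) hr h
  have hrM : r ∣ M := hM ▸ (pow_one r).symm ▸ dvd_mul_right r M₀
  refine (Newforms.newformBadPrimeCoeff M g hg r hr hrM).1 fun h2 => hrM₀ ?_
  rw [hM, pow_one, sq] at h2
  exact Nat.dvd_of_mul_dvd_mul_left hr.pos h2

include hg hMN hS hNS in
/-- At a prime not dividing the level, `T_r` is the scalar `a_r (g)`. -/
theorem relation_good (r : Nat.Primes) (hrN : ¬ (r : ℕ) ∣ N) :
    ∀ f ∈ system N g S, rootsProd (opC N r) [qCoeff ⇑g r] f = 0 := by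
  refine rootsProd_eq_zero hNS r _ fun a ha ha' => ?_
  have hrM : ¬ (r : ℕ) ∣ M := fun h => hrN (h.trans hMN)
  simp only [rootsProd_cons_apply, rootsProd_nil_apply, Pi.sub_apply, Pi.smul_apply, smul_eq_mul,
    sOp_apply, Nat.Prime.not_dvd_one r.2, and_false, if_false, one_mul, add_zero]
  by_cases hrS : (r : ℕ) ∈ S
  · rw [coeff_eq_of_not_dvd hS r.2 hrN hrM ha ha' ⟨g, rfl⟩
      (coeffMap_mem_goodSeqs hg hMN hNS) hg.1.qCoeff_one (hop_coeffMap hg r.2 hrM), sub_self]
  · have h := congrFun (ha' r r.2 hrS) 1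
    rw [hop_apply, if_neg r.2.not_dvd_one, one_mul, add_zero, Pi.smul_apply, smul_eq_mul] at h
    rw [h, sub_self]

include hg hMN hS hNS in
/-- At a prime dividing both levels once. -/
theorem relation_new (r : Nat.Primes) (hN : N.factorization r = 1)
    (hM : M.factorization r = 1) :
    ∀ f ∈ system N g S, rootsProd (opC N r) [qCoeff ⇑g r] f = 0 := by
  refine rootsProd_eq_zero hNS r _ fun a ha ha' => ?_
  obtain ⟨L, hL0, hrL, hNL⟩ := exists_eq_pow_mul (NeZero.ne N) r.2 hN
  obtain ⟨M₀, hM0, hrM₀, hML⟩ := exists_eq_pow_mul (NeZero.ne M) r.2 hM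
  rw [pow_one] at hNL hML
  have : NeZero L := ⟨hL0⟩
  have : NeZero M₀ := ⟨hM0⟩
  have hrS : (r : ℕ) ∈ S := hNS r r.2 (hNL ▸ dvd_mul_right _ _)
  have hrN : (r : ℕ) ∣ N := hNL ▸ dvd_mul_right _ _
  have hgM : coeffMap M g ∈ qSeqs ((r : ℕ) * M₀) := hML ▸ (⟨g, rfl⟩ : coeffMap M g ∈ qSeqs M)
  have h := coeff_linear_of_dvd hS r.2 hrS hrL hrM₀ (hNL ▸ ha) ha' hgM
    (coeffMap_mem_goodSeqs hg hMN hNS) hg.1.qCoeff_one
    (dil_coeffMap hg r.2 (hML ▸ dvd_mul_right _ _)) (qCoeff_sq_eq_one hg r.2 hM)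
  simp [rootsProd_cons_apply, sOp_apply, hrN, h]

include hg hMN hS hNS in
/-- At a prime dividing the level once and not that of `g`. -/
theorem relation_old (r : Nat.Primes) (hN : N.factorization r = 1)
    (hM : M.factorization r = 0) {α β : ℂ} (hsum : α + β = qCoeff ⇑g r)
    (hprod : α * β = (r : ℕ)) :
    ∀ f ∈ system N g S, rootsProd (opC N r) [α, β] f = 0 := by
  refine rootsProd_eq_zero hNS r _ fun a ha ha' => ?_
  obtain ⟨L, hL0, hrL, hNL⟩ := exists_eq_pow_mul (NeZero.ne N) r.2 hN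
  rw [pow_one] at hNL
  have : NeZero L := ⟨hL0⟩
  have hrN : (r : ℕ) ∣ N := hNL ▸ dvd_mul_right _ _
  have hrM := not_dvd_of_factorization r.2 hM
  have h := coeff_quadratic_of_dvd hS r.2 (hNS r r.2 hrN) hrL hrM (hNL ▸ ha) ha' ⟨g, rfl⟩
    (coeffMap_mem_goodSeqs hg hMN hNS) hg.1.qCoeff_one (hop_coeffMap hg r.2 hrM)
  simp [rootsProd_cons_apply, sOp_apply, hrN]
  linear_combination h - a r * hsum + a 1 * hprod

include hg hMN hS hNS in
/-- At a prime whose square divides the level, not dividing that of `g`. -/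
theorem relation_sq_old (r : Nat.Primes) (hN : N.factorization r = 2)
    (hM : M.factorization r = 0) {α β : ℂ} (hsum : α + β = qCoeff ⇑g r)
    (hprod : α * β = (r : ℕ)) :
    ∀ f ∈ system N g S, rootsProd (opC N r) [0, α, β] f = 0 := by
  refine rootsProd_eq_zero hNS r _ fun a ha ha' => ?_
  obtain ⟨L, hL0, hrL, hNL⟩ := exists_eq_pow_mul (NeZero.ne N) r.2 hN
  rw [sq, mul_assoc] at hNL
  have : NeZero L := ⟨hL0⟩
  have : NeZero ((r : ℕ) * L) := ⟨mul_ne_zero r.2.ne_zero hL0⟩
  have hrN : (r : ℕ) ∣ N := hNL ▸ dvd_mul_right _ _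
  have hrS := hNS r r.2 hrN
  have hrM := not_dvd_of_factorization r.2 hM
  have h := coeff_quadratic_of_dvd hS r.2 hrS hrL hrM
    (dil_mem_qSeqs_of_mul r.2 (dvd_mul_right _ L) (hNL ▸ ha)) (dil_mem_goodSeqs hrS r.2 ha')
    ⟨g, rfl⟩ (coeffMap_mem_goodSeqs hg hMN hNS) hg.1.qCoeff_one (hop_coeffMap hg r.2 hrM)
  simp only [dil_apply, one_mul] at h
  simp [rootsProd_cons_apply, sOp_apply, hrN]
  linear_combination h - a (r * r) * hsum + a r * hprod

include hg hMN hS hNS in
/-- At a prime whose square divides the level, dividing that of `g` once. -/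
theorem relation_sq_new (r : Nat.Primes) (hN : N.factorization r = 2)
    (hM : M.factorization r = 1) :
    ∀ f ∈ system N g S, rootsProd (opC N r) [0, qCoeff ⇑g r] f = 0 := by
  refine rootsProd_eq_zero hNS r _ fun a ha ha' => ?_
  obtain ⟨L, hL0, hrL, hNL⟩ := exists_eq_pow_mul (NeZero.ne N) r.2 hN
  obtain ⟨M₀, hM0, hrM₀, hML⟩ := exists_eq_pow_mul (NeZero.ne M) r.2 hM
  rw [pow_one] at hML
  rw [sq, mul_assoc] at hNL
  have : NeZero L := ⟨hL0⟩
  have : NeZero M₀ := ⟨hM0⟩
  have : NeZero ((r : ℕ) * L) := ⟨mul_ne_zero r.2.ne_zero hL0⟩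
  have hrN : (r : ℕ) ∣ N := hNL ▸ dvd_mul_right _ _
  have hrS := hNS r r.2 hrN
  have hgM : coeffMap M g ∈ qSeqs ((r : ℕ) * M₀) := hML ▸ (⟨g, rfl⟩ : coeffMap M g ∈ qSeqs M)
  have h := coeff_linear_of_dvd hS r.2 hrS hrL hrM₀
    (dil_mem_qSeqs_of_mul r.2 (dvd_mul_right _ L) (hNL ▸ ha)) (dil_mem_goodSeqs hrS r.2 ha')
    hgM (coeffMap_mem_goodSeqs hg hMN hNS) hg.1.qCoeff_one
    (dil_coeffMap hg r.2 (hML ▸ dvd_mul_right _ _)) (qCoeff_sq_eq_one hg r.2 hM)
  simp only [dil_apply, one_mul] at h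
  simp [rootsProd_cons_apply, sOp_apply, hrN]
  linear_combination h

end System

end Fermat.Agent.Lifting.Mult
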