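import Fermat.Agent.Lifting.Mult.Eigen
import Mathlib.LinearAlgebra.Eigenspace.Minpoly
import Mathlib.LinearAlgebra.Matrix.Charpoly.LinearMap
import Mathlib.RingTheory.IntegralClosure.Algebra.Basic
import Mathlib.RingTheory.Flat.TorsionFree
import Mathlib.RingTheory.DiscreteValuationRing.Basic
import Mathlib.RingTheory.TensorProduct.Basic

/-!
# Eigenvalues congruent to a residual value

For an operator `f` on a lattice `W` such that `(f - c) ^ n W ⊆ ϖ W`, the eigenvalues over an
extension of the fraction field are integral and congruent to `c`.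
-/

set_option autoImplicit false

noncomputable section

open IsLocalRing Polynomial
open scoped TensorProduct

namespace Fermat.Agent.Lifting.Mult

variable {O : Type} [CommRing O] [IsDomain O] [IsDiscreteValuationRing O]
  {K : Type} [Field K] [Algebra O K]

variable (O K) in
/-- The integral elements of `K` which are topologically nilpotent. -/
def nearZero : Ideal (integralClosure O K) :=
  ((maximalIdeal O).map (algebraMap O (integralClosure O K))).radical

/-- `ρ` is integral and congruent to `c`. -/
def GoodRoot (c : O) (ρ : K) : Prop :=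
  ∃ z ∈ nearZero O K, (z : K) = ρ - algebraMap O K c

/-- A good root is integral. -/
theorem GoodRoot.isIntegral {c : O} {ρ : K} (h : GoodRoot c ρ) : IsIntegral O ρ := by
  obtain ⟨z, -, hz⟩ := h
  have h := z.2.add (isIntegral_algebraMap (R := O) (A := K) (x := c))
  rwa [hz, sub_add_cancel] at h

section Faithful

variable [FaithfulSMul O K]

theorem mem_maximalIdeal_of_mem_nearZero {x : O}
    (h : algebraMap O (integralClosure O K) x ∈ nearZero O K) : x ∈ maximalIdeal O := by
  obtain ⟨ϖ, hϖ⟩ := IsDiscreteValuationRing.exists_irreducible O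
  obtain ⟨n, hn⟩ := h
  rw [hϖ.maximalIdeal_eq, Ideal.map_span, Set.image_singleton, Ideal.mem_span_singleton'] at hn
  obtain ⟨b, hb⟩ := hn
  have : FaithfulSMul O (integralClosure O K) := (faithfulSMul_iff_algebraMap_injective O _).mpr
    fun x y hxy => FaithfulSMul.algebraMap_injective O K (congrArg Subtype.val hxy)
  rw [mem_maximalIdeal, mem_nonunits_iff]
  intro hx
  have hu : IsUnit (algebraMap O (integralClosure O K) ϖ) := by
    refine isUnit_of_mul_isUnit_right (x := b) ?_
    rw [hb]
    exact (hx.map _).pow n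
  exact hϖ.not_isUnit ((Algebra.IsIntegral.isLocalHom O (integralClosure O K)).map_nonunit ϖ hu)

/-- A residual congruence from a congruence of integral elements. -/
theorem residue_eq_of_goodRoot {x y : O} {u : K} (hu : GoodRoot y u)
    (hx : algebraMap O K x = u) : residue O x = residue O y := by
  obtain ⟨z, hz, hzu⟩ := hu
  rw [← sub_eq_zero, ← map_sub, residue_eq_zero_iff]
  refine mem_maximalIdeal_of_mem_nearZero (K := K) ?_
  have : algebraMap O (integralClosure O K) (x - y) = z := Subtype.ext (by
    rw [hzu, ← hx]; exact map_sub (algebraMap O K) x y)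
  rwa [this]

omit [FaithfulSMul O K] in
/-- The product of good roots. -/
theorem GoodRoot.mul {c d : O} {u v : K} (hu : GoodRoot c u) (hv : GoodRoot d v) :
    GoodRoot (c * d) (u * v) := by
  have hui := hu.isIntegral
  obtain ⟨z, hz, hzu⟩ := hu
  obtain ⟨w, hw, hwv⟩ := hv
  refine ⟨(⟨u, hui⟩ : integralClosure O K) * w + algebraMap O (integralClosure O K) d * z,
    add_mem (Ideal.mul_mem_left _ _ hw) (Ideal.mul_mem_left _ _ hz), ?_⟩
  show u * (w : K) + algebraMap O K d * (z : K) = _
  rw [hzu, hwv, map_mul]
  ring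

omit [FaithfulSMul O K] in
/-- The product of a good root of `0` and an integral element. -/
theorem GoodRoot.mul_integral {u v : K} (hu : GoodRoot (0 : O) u) (hv : IsIntegral O v) :
    GoodRoot (0 : O) (u * v) := by
  obtain ⟨z, hz, hzu⟩ := hu
  refine ⟨z * ⟨v, hv⟩, Ideal.mul_mem_right _ _ hz, ?_⟩
  show (z : K) * v = _
  rw [hzu, map_zero, sub_zero, sub_zero]

end Faithful

variable {W : Type} [AddCommGroup W] [Module O W] [Module.Finite O W] [Module.IsTorsionFree O W]

/-- An eigenvalue is congruent to `c` if `f - c` is topologically nilpotent. -/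
theorem goodRoot_of_eigenvector [FaithfulSMul O K] {ϖ : O} (hϖ : Irreducible ϖ) (f : Module.End O W) (c : O) {n : ℕ}
    (hn : n ≠ 0) (hnil : ∀ w, ∃ w', ((f - algebraMap O _ c) ^ n) w = ϖ • w') {ρ : K}
    {v : K ⊗[O] W} (hv : v ≠ 0) (hfv : f.baseChange K v = ρ • v) : GoodRoot c ρ := by
  choose Bf hBf using hnil
  let B : Module.End O W :=
    { toFun := Bf
      map_add' := fun x y => smul_right_injective W hϖ.ne_zero (by
        show ϖ • Bf (x + y) = ϖ • (Bf x + Bf y)
        rw [smul_add, ← hBf, ← hBf, ← hBf, map_add])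
      map_smul' := fun a x => smul_right_injective W hϖ.ne_zero (by
        show ϖ • Bf (a • x) = ϖ • (a • Bf x)
        rw [← hBf, map_smul, smul_comm, ← hBf]) }
  have hB : (f - algebraMap O _ c) ^ n = ϖ • B := LinearMap.ext fun w => hBf w
  have hϖ0 : algebraMap O K ϖ ≠ 0 := fun h =>
    hϖ.ne_zero (FaithfulSMul.algebraMap_injective O K (h.trans (map_zero _).symm))
  set μ := (ρ - algebraMap O K c) ^ n / algebraMap O K ϖ with hμ
  have hev : Module.End.HasEigenvector (f.baseChange K) ρ v :=
    ⟨Module.End.mem_eigenspace_iff.mpr hfv, hv⟩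
  have hBv : B.baseChange K v = μ • v := by
    have h1 := congrArg (fun g : Module.End O W => g.baseChange K v) hB
    simp only [LinearMap.baseChange_pow, LinearMap.baseChange_smul, LinearMap.smul_apply] at h1
    have h2 : (f - algebraMap O (Module.End O W) c).baseChange K =
        Polynomial.aeval (f.baseChange K) (X - Polynomial.C (algebraMap O K c)) := by
      rw [LinearMap.baseChange_sub, map_sub, Polynomial.aeval_X, Polynomial.aeval_C]
      congr 1
      refine LinearMap.ext fun u => ?_
      rw [Module.algebraMap_end_apply, algebraMap_smul]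
      exact LinearMap.congr_fun ((Module.End.baseChangeHom O K W).commutes c) u
    rw [h2, ← map_pow, Module.End.aeval_apply_of_hasEigenvector hev, Polynomial.eval_pow,
      Polynomial.eval_sub, Polynomial.eval_X, Polynomial.eval_C,
      ← algebraMap_smul K ϖ (B.baseChange K v)] at h1
    rw [hμ, div_eq_inv_mul, mul_smul, h1, smul_smul, inv_mul_cancel₀ hϖ0, one_smul]
  have hμi : IsIntegral O μ := by
    obtain ⟨P, hP, hPB⟩ := LinearMap.exists_monic_and_aeval_eq_zero O B
    refine ⟨P, hP, ?_⟩
    have hevB : Module.End.HasEigenvector (B.baseChange K) μ v :=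
      ⟨Module.End.mem_eigenspace_iff.mpr hBv, hv⟩
    have h := Module.End.aeval_apply_of_hasEigenvector (p := P.map (algebraMap O K)) hevB
    rw [Polynomial.aeval_map_algebraMap, show B.baseChange K = Module.End.baseChangeHom O K W B
      from rfl, Polynomial.aeval_algHom_apply, hPB, map_zero, LinearMap.zero_apply, eq_comm,
      smul_eq_zero, Polynomial.eval_map] at h
    exact h.resolve_right hv
  have hpow : (ρ - algebraMap O K c) ^ n = algebraMap O K ϖ * μ := (mul_div_cancel₀ _ hϖ0).symm
  have hint : IsIntegral O (ρ - algebraMap O K c) :=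
    IsIntegral.of_pow (Nat.pos_of_ne_zero hn) (hpow ▸ isIntegral_algebraMap.mul hμi)
  refine ⟨⟨_, hint⟩, ⟨n, ?_⟩, rfl⟩
  rw [show (⟨_, hint⟩ : integralClosure O K) ^ n =
    algebraMap O (integralClosure O K) ϖ * ⟨μ, hμi⟩ from Subtype.ext hpow]
  exact Ideal.mul_mem_right _ _ (Ideal.mem_map_of_mem _
    (hϖ.maximalIdeal_eq ▸ Ideal.mem_span_singleton_self ϖ))

/-- If all but the first root of an annihilating product are bad, the operator is the first
root. -/
theorem eq_smul_of_rootsProd {V : Type} [AddCommGroup V] [Module K V] [FiniteDimensional K V]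
    (f : Module.End K V) (lam : K) (bad : List K)
    (hbad : ∀ ρ ∈ bad, ∀ v, f v = ρ • v → v = 0)
    (h : ∀ v, rootsProd f (lam :: bad) v = 0) : ∀ v, f v = lam • v := by
  have hinj : ∀ l : List K, (∀ ρ ∈ l, ∀ v, f v = ρ • v → v = 0) →
      ∀ v, rootsProd f l v = 0 → v = 0 := by
    intro l
    induction l with
    | nil => intro _ v hv; exact hv
    | cons ρ l ih =>
      intro hl v hv
      rw [rootsProd_cons_apply, sub_eq_zero] at hv
      exact ih (fun ρ' hρ' => hl ρ' (List.mem_cons_of_mem _ hρ')) v
        (hl ρ List.mem_cons_self _ hv)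
  intro v
  obtain ⟨u, rfl⟩ := (LinearMap.injective_iff_surjective (f := rootsProd f bad)).mp
    ((injective_iff_map_eq_zero _).mpr (hinj bad hbad)) v
  rw [← sub_eq_zero, ← rootsProd_cons_apply, h]

/-- Over a complete local ring a polynomial in an operator factors as a power of the variable
times a residual unit, up to the maximal ideal. -/
theorem exists_pow_mul_eq {P : O[X]} (hP : P.Monic) {ϖ : O} (hϖ : Irreducible ϖ) :
    ∃ (n : ℕ) (Q R : O[X]), residue O (Q.coeff 0) ≠ 0 ∧
      P = X ^ n * Q + Polynomial.C ϖ * R := by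
  have hne : P.map (residue O) ≠ 0 := (hP.map _).ne_zero
  obtain ⟨q, hq, hndvd⟩ := (P.map (residue O)).exists_eq_pow_rootMultiplicity_mul_and_not_dvd hne 0
  rw [map_zero, sub_zero] at hq hndvd
  obtain ⟨Q, rfl⟩ := Polynomial.map_surjective (residue O) residue_surjective q
  set n := (P.map (residue O)).rootMultiplicity 0
  obtain ⟨R, hR⟩ : Polynomial.C ϖ ∣ P - X ^ n * Q := by
    rw [Polynomial.C_dvd_iff_dvd_coeff]
    intro i
    rw [← Ideal.mem_span_singleton, ← hϖ.maximalIdeal_eq, ← residue_eq_zero_iff,
      ← Polynomial.coeff_map, Polynomial.map_sub, Polynomial.map_mul, Polynomial.map_pow,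
      Polynomial.map_X, ← hq, sub_self, Polynomial.coeff_zero]
  refine ⟨n, Q, R, fun h0 => hndvd ?_, by rw [← hR, add_sub_cancel]⟩
  rwa [Polynomial.X_dvd_iff, Polynomial.coeff_map]

end Fermat.Agent.Lifting.Mult
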