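import Fermat.Agent.HeckeCohom.EigenHoms
import Fermat.Agent.S21
import Fermat.Agent.Lifting.Mult.Eigen
import Mathlib.LinearAlgebra.Matrix.Rank
import Mathlib.LinearAlgebra.Matrix.ToLin
import Mathlib.FieldTheory.AlgebraicClosure

/-!
# Transfer of the relations to parabolic homomorphisms over any field

Parabolic homomorphisms `Γ₀(N) → B` are `Bᵈ`; eigen conditions are linear equations with algebraic
coefficients, so their solutions over `ℂ`, described by Eichler–Shimura, control those over any
field of characteristic zero.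
-/

set_option autoImplicit false

noncomputable section

open CongruenceSubgroup ModularCurve ModularCurve.Period ModularFormClass Matrix
open scoped MatrixGroups

namespace Fermat.Agent.Lifting.Mult

open Fermat.Agent.HeckeLattice (ParGroup parHom parHom_surjective parHom_isParabolicHom factor
  factor_comp_parHom)
open Fermat.Agent.HeckeCohom (heckeOp)

section LinearAlgebra

variable {ι F K : Type} [Fintype ι] [Field F] [Field K] (j : F →+* K)

/-- The common zeros of a set of linear forms. -/
def sol (A : Set (ι → F)) : Submodule F (ι → F) where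
  carrier := {x | ∀ v ∈ A, v ⬝ᵥ x = 0}
  add_mem' ha hb v hv := by rw [dotProduct_add, ha v hv, hb v hv, add_zero]
  zero_mem' v _ := dotProduct_zero v
  smul_mem' c x hx v hv := by rw [dotProduct_smul, hx v hv, smul_zero]

theorem mem_sol {A : Set (ι → F)} {x : ι → F} : x ∈ sol A ↔ ∀ v ∈ A, v ⬝ᵥ x = 0 := Iff.rfl

theorem sol_eq_of_span {A B : Set (ι → F)} (h : Submodule.span F A = Submodule.span F B) :
    sol A = sol B := by
  have key : ∀ {A B : Set (ι → F)}, A ⊆ Submodule.span F B → sol B ≤ sol A := by
    intro A B hAB x hx v hv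
    exact Submodule.span_induction (p := fun w _ => w ⬝ᵥ x = 0) (fun w hw => hx w hw)
      (zero_dotProduct x) (fun _ _ _ _ ha hb => by rw [add_dotProduct, ha, hb, add_zero])
      (fun c _ _ ha => by rw [smul_dotProduct, ha, smul_zero]) (hAB hv)
  exact le_antisymm (key fun v hv => h ▸ Submodule.subset_span hv)
    (key fun v hv => h.symm ▸ Submodule.subset_span hv)

/-- A linear form vanishing on the solutions also does over an extension. -/
theorem dotProduct_map_eq_zero (A : Set (ι → F)) (w : ι → F)
    (h : ∀ x ∈ sol A, w ⬝ᵥ x = 0) :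
    ∀ y ∈ sol ((fun v => j ∘ v) '' A), (j ∘ w) ⬝ᵥ y = 0 := by
  classical
  have hw : w ∈ Submodule.span F A := by
    by_contra hn
    obtain ⟨f, hfw, hfA⟩ := Submodule.exists_dual_map_eq_bot_of_notMem hn inferInstance
    have hfA' : ∀ v ∈ Submodule.span F A, f v = 0 := fun v hv =>
      (Submodule.mem_bot F).mp (hfA ▸ Submodule.mem_map_of_mem (f := f) hv)
    have hdot : ∀ v, v ⬝ᵥ (fun i => f (Pi.single i 1)) = f v := fun v => by
      conv_rhs => rw [← Finset.univ_sum_single v]
      rw [map_sum, dotProduct]
      refine Finset.sum_congr rfl fun i _ => ?_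
      rw [← smul_eq_mul, ← map_smul, ← Pi.single_smul, smul_eq_mul, mul_one]
    refine hfw ?_
    rw [← hdot]
    refine h _ fun v hv => ?_
    rw [hdot]
    exact hfA' _ (Submodule.subset_span hv)
  intro y hy
  refine Submodule.span_induction (p := fun v _ => (j ∘ v) ⬝ᵥ y = 0) (fun v hv => hy _ ⟨v, hv, rfl⟩)
    ?_ ?_ ?_ hw
  · simp [dotProduct]
  · intro a b _ _ ha hb
    have : j ∘ (a + b) = j ∘ a + j ∘ b := funext fun i => map_add j _ _
    rw [this, add_dotProduct, ha, hb, add_zero]
  · intro c a _ ha
    have : j ∘ (c • a) = j c • (j ∘ a) := funext fun i => map_mul j _ _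
    rw [this, smul_dotProduct, ha, smul_zero]

theorem finrank_sol_of_matrix {m : ℕ} (B : Matrix (Fin m) ι F) (hB : B.rank = m) :
    Module.finrank F (sol (Set.range fun i => B i)) + m = Fintype.card ι := by
  have hk : sol (Set.range fun i => B i) = LinearMap.ker B.mulVecLin := by
    ext x
    simp only [mem_sol, Set.forall_mem_range, LinearMap.mem_ker, Matrix.mulVecLin_apply, funext_iff]
    rfl
  have h := LinearMap.finrank_range_add_finrank_ker B.mulVecLin
  rw [Module.finrank_pi, show Module.finrank F (LinearMap.range B.mulVecLin) = m from hB] at h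
  rw [hk]
  omega

/-- The dimension of the solutions does not change under field extensions. -/
theorem finrank_sol_map (A : Set (ι → F)) :
    Module.finrank K (sol ((fun v => j ∘ v) '' A)) = Module.finrank F (sol A) := by
  classical
  set V := Submodule.span F A
  set m := Module.finrank F V
  let b := Module.finBasis F V
  let B : Matrix (Fin m) ι F := Matrix.of fun i => (b i : ι → F)
  have hspan : Submodule.span F A = Submodule.span F (Set.range fun i => B i) := by
    show V = Submodule.span F (Set.range (V.subtype ∘ b))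
    rw [Set.range_comp, Submodule.span_image, b.span_eq, Submodule.map_top, Submodule.range_subtype]
  have hrank : B.rank = m := by
    rw [Matrix.rank_eq_finrank_span_row]
    show Module.finrank F (Submodule.span F (Set.range fun i => B i)) = m
    rw [← hspan]
  obtain ⟨C, hC⟩ : ∃ C : Matrix ι (Fin m) F, B * C = 1 := by
    refine Matrix.mulVec_surjective_iff_exists_right_inverse.mp ?_
    rw [← Matrix.coe_mulVecLin, ← LinearMap.range_eq_top]
    refine Submodule.eq_top_of_finrank_eq ?_
    rw [Module.finrank_fintype_fun_eq_card, Fintype.card_fin]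
    exact hrank
  have hrank' : (B.map j).rank = m := by
    refine le_antisymm ((Matrix.rank_le_card_height _).trans_eq (Fintype.card_fin m)) ?_
    have h := Matrix.rank_mul_le_left (B.map j) (C.map j)
    rw [← Matrix.map_mul, hC, Matrix.map_one j (map_zero j) (map_one j), Matrix.rank_one,
      Fintype.card_fin] at h
    exact h
  have hspan' : Submodule.span K ((fun v => j ∘ v) '' A) =
      Submodule.span K (Set.range fun i => (B.map j) i) := by
    have key : ∀ {A B : Set (ι → F)}, A ⊆ Submodule.span F B →
        ((fun v => j ∘ v) '' A) ⊆ Submodule.span K ((fun v => j ∘ v) '' B) := by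
      rintro A B hAB _ ⟨v, hv, rfl⟩
      refine Submodule.span_induction
        (p := fun w _ => j ∘ w ∈ Submodule.span K ((fun v => j ∘ v) '' B))
        (fun w hw => Submodule.subset_span ⟨w, hw, rfl⟩) ?_ ?_ ?_ (hAB hv)
      · have : j ∘ (0 : ι → F) = 0 := funext fun i => map_zero j
        rw [this]; exact zero_mem _
      · intro a b _ _ ha hb
        have : j ∘ (a + b) = j ∘ a + j ∘ b := funext fun i => map_add j _ _
        rw [this]; exact add_mem ha hb
      · intro c a _ ha
        have : j ∘ (c • a) = j c • (j ∘ a) := funext fun i => map_mul j _ _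
        rw [this]; exact Submodule.smul_mem _ _ ha
    have hr : (Set.range fun i => (B.map j) i) = (fun v => j ∘ v) '' Set.range fun i => B i := by
      rw [← Set.range_comp]; rfl
    rw [hr]
    exact le_antisymm (Submodule.span_le.mpr (key fun v hv => hspan ▸ Submodule.subset_span hv))
      (Submodule.span_le.mpr (key fun v hv => hspan.symm ▸ Submodule.subset_span hv))
  have h1 := finrank_sol_of_matrix B hrank
  have h2 := finrank_sol_of_matrix (B.map j) hrank'
  rw [← sol_eq_of_span hspan] at h1
  rw [← sol_eq_of_span hspan'] at h2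
  omega

end LinearAlgebra

variable (N : ℕ) [NeZero N]

/-- The index of a basis of parabolic homomorphisms. -/
abbrev ParIdx : Type :=
  Module.Free.ChooseBasisIndex ℤ (ParGroup N ⧸ Submodule.torsion ℤ (ParGroup N))

/-- A basis of the torsion-free quotient of the parabolic group. -/
def parBasis :
    Module.Basis (ParIdx N) ℤ (ParGroup N ⧸ Submodule.torsion ℤ (ParGroup N)) :=
  Module.Free.chooseBasis ℤ _

/-- Elements of `Γ₀(N)` lifting the basis. -/
def parGen (i : ParIdx N) : Additive (Gamma0 N) :=
  Function.surjInv ((Submodule.mkQ_surjective _).comp (parHom_surjective N)) (parBasis N i)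

theorem parGen_spec (i : ParIdx N) :
    Submodule.Quotient.mk (parHom N (parGen N i)) = parBasis N i :=
  Function.surjInv_eq ((Submodule.mkQ_surjective _).comp (parHom_surjective N)) (parBasis N i)

/-- The coordinate homomorphisms. -/
def parCoord (i : ParIdx N) : Additive (Gamma0 N) →+ ℤ :=
  (((parBasis N).coord i).comp (Submodule.torsion ℤ (ParGroup N)).mkQ).toAddMonoidHom.comp
    (parHom N)

theorem parCoord_parGen (i k : ParIdx N) : parCoord N i (parGen N k) = if k = i then 1 else 0 := by
  show (parBasis N).coord i (Submodule.Quotient.mk (parHom N (parGen N k))) = _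
  rw [parGen_spec, Module.Basis.coord_apply, Module.Basis.repr_self, Finsupp.single_apply]

variable (B : Type) [CommRing B]

/-- The parabolic homomorphism with given values at the generators. -/
def parPhi : (ParIdx N → B) →ₗ[B] (Additive (Gamma0 N) →+ B) :=
  Fintype.linearCombination B fun i => (Int.castAddHom B).comp (parCoord N i)

variable {N B}

theorem parPhi_apply (x : ParIdx N → B) (γ : Additive (Gamma0 N)) :
    parPhi N B x γ = ∑ i, x i * (parCoord N i γ : B) := by
  rw [parPhi, Fintype.linearCombination_apply]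
  simp

theorem parPhi_parGen (x : ParIdx N → B) (k : ParIdx N) : parPhi N B x (parGen N k) = x k := by
  classical
  rw [parPhi_apply, Finset.sum_eq_single k]
  · simp [parCoord_parGen]
  · intro i _ hi
    simp [parCoord_parGen, Ne.symm hi]
  · simp

/-- `parPhi` is injective. -/
theorem parPhi_injective : Function.Injective (parPhi N B) := fun x y h => funext fun k => by
  rw [← parPhi_parGen x k, ← parPhi_parGen y k, h]

theorem parPhi_isParabolicHom (x : ParIdx N → B) :
    IsParabolicHom (Gamma0 N) (parPhi N B x) := fun γ hγ => by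
  rw [parPhi_apply]
  refine Finset.sum_eq_zero fun i _ => ?_
  have h0 : parHom N (Additive.ofMul γ) = 0 := parHom_isParabolicHom N γ hγ
  have : parCoord N i (Additive.ofMul γ) = 0 := by simp [parCoord, h0]
  simp [this]

/-- Parabolic homomorphisms to torsion-free groups are determined by their values at the
generators. -/
theorem parPhi_eq [IsAddTorsionFree B] (φ : Additive (Gamma0 N) →+ B)
    (hφ : IsParabolicHom (Gamma0 N) φ) : parPhi N B (fun i => φ (parGen N i)) = φ := by
  refine AddMonoidHom.ext fun γ => ?_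
  set Q := Submodule.torsion ℤ (ParGroup N)
  set y := parHom N γ with hy
  set z := ∑ i, (parBasis N).repr (Submodule.Quotient.mk y) i • parHom N (parGen N i) with hz
  have hyz : y - z ∈ Q := by
    rw [← Submodule.Quotient.mk_eq_zero, Submodule.Quotient.mk_sub, sub_eq_zero, hz,
      ← Submodule.mkQ_apply, ← Submodule.mkQ_apply, map_sum]
    simp_rw [map_zsmul, Submodule.mkQ_apply, parGen_spec]
    exact ((parBasis N).sum_repr _).symm
  have hg : factor φ hφ (y - z) = 0 := by
    obtain ⟨⟨n, hn⟩, hn0⟩ := hyz
    have h1 : n • factor φ hφ (y - z) = 0 := by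
      rw [← map_zsmul, show n • (y - z) = 0 from hn0, map_zero]
    exact (smul_eq_zero.mp h1).resolve_left (nonZeroDivisors.ne_zero hn)
  rw [map_sub, sub_eq_zero] at hg
  have hγ : φ γ = factor φ hφ y := by
    conv_lhs => rw [← factor_comp_parHom φ hφ]
    rfl
  rw [parPhi_apply, hγ, hg, hz, map_sum]
  refine Finset.sum_congr rfl fun i _ => ?_
  rw [map_zsmul, show factor φ hφ (parHom N (parGen N i)) = φ (parGen N i) from
    DFunLike.congr_fun (factor_comp_parHom φ hφ) (parGen N i), zsmul_eq_mul, mul_comm]
  rfl

variable (N B)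

/-- `T_r` or `U_r` on homomorphisms, linear over the coefficients. -/
def opK (r : Nat.Primes) : Module.End B (Additive (Gamma0 N) →+ B) where
  toFun := heckeOp N r r.2 B
  map_add' := map_add _
  map_smul' c φ := HeckeCohom.heckeOp_smul N r r.2 c φ

variable {N B} {C : Type} [CommRing C] (j : B →+* C)

/-- Composition with a ring homomorphism. -/
abbrev mapHom : (Additive (Gamma0 N) →+ B) →+ (Additive (Gamma0 N) →+ C) :=
  AddMonoidHom.compHom j.toAddMonoidHom

omit [NeZero N] in
/-- `mapHom` is semilinear. -/
theorem mapHom_smul (c : B) (φ : Additive (Gamma0 N) →+ B) :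
    mapHom j (c • φ) = j c • mapHom j φ :=
  AddMonoidHom.ext fun γ => map_mul j c (φ γ)

omit [NeZero N] in
/-- `mapHom` commutes with the Hecke operators. -/
theorem mapHom_opK (r : Nat.Primes) (φ : Additive (Gamma0 N) →+ B) :
    mapHom j (opK N B r φ) = opK N C r (mapHom j φ) :=
  HeckeCohom.comp_heckeOp N r r.2 j.toAddMonoidHom φ

/-- `mapHom` commutes with `parPhi`. -/
theorem mapHom_parPhi (x : ParIdx N → B) : mapHom j (parPhi N B x) = parPhi N C (j ∘ x) := by
  refine AddMonoidHom.ext fun γ => ?_
  show j (parPhi N B x γ) = _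
  rw [parPhi_apply, parPhi_apply, map_sum]
  exact Finset.sum_congr rfl fun i _ => by rw [map_mul, map_intCast]; rfl

omit [NeZero N] in
theorem mapHom_rootsProd (r : Nat.Primes) (l : List B) :
    ∀ φ, mapHom j (rootsProd (opK N B r) l φ) =
      rootsProd (opK N C r) (l.map j) (mapHom j φ) := by
  induction l with
  | nil => intro φ; rfl
  | cons ρ l ih =>
    intro φ
    rw [List.map_cons, rootsProd_cons_apply, rootsProd_cons_apply, map_sub, mapHom_smul,
      mapHom_opK, ih]

section Rows

variable {F K : Type} [Field F] [Field K] (σ : F →+* K)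

/-- The linear form `x ↦ T (Φ x) γ`. -/
def row (T : Module.End F (Additive (Gamma0 N) →+ F)) (γ : Additive (Gamma0 N)) : ParIdx N → F :=
  fun i => T (parPhi N F (Pi.single i 1)) γ

theorem row_dotProduct (T : Module.End F (Additive (Gamma0 N) →+ F)) (γ : Additive (Gamma0 N))
    (x : ParIdx N → F) : row T γ ⬝ᵥ x = T (parPhi N F x) γ := by
  classical
  conv_rhs => rw [pi_eq_sum_univ' x]
  simp only [map_sum, map_smul, AddMonoidHom.finsetSum_apply, AddMonoidHom.smul_apply, dotProduct,
    row, smul_eq_mul]
  exact Finset.sum_congr rfl fun i _ => mul_comm _ _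

theorem map_row {T : Module.End F (Additive (Gamma0 N) →+ F)}
    {T' : Module.End K (Additive (Gamma0 N) →+ K)}
    (h : ∀ φ, mapHom σ (T φ) = T' (mapHom σ φ)) (γ : Additive (Gamma0 N)) :
    σ ∘ row T γ = row T' γ := funext fun i => by
  classical
  have := DFunLike.congr_fun (h (parPhi N F (Pi.single i 1))) γ
  rw [mapHom_parPhi] at this
  refine this.trans ?_
  rw [show σ ∘ Pi.single i (1 : F) = Pi.single i 1 from funext fun k => by
    rw [Function.comp_apply, Pi.single_apply, Pi.single_apply, apply_ite σ, map_one, map_zero]]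
  rfl

/-- The coordinates of the common kernel of a family of operators. -/
def kerSol {κ : Type} (T : κ → Module.End F (Additive (Gamma0 N) →+ F)) :
    Submodule F (ParIdx N → F) :=
  ⨅ k, LinearMap.ker ((T k).comp (parPhi N F))

theorem mem_kerSol {κ : Type} {T : κ → Module.End F (Additive (Gamma0 N) →+ F)}
    {x : ParIdx N → F} : x ∈ kerSol T ↔ ∀ k, T k (parPhi N F x) = 0 := by
  simp [kerSol, Submodule.mem_iInf]

theorem kerSol_eq_sol {κ : Type} (T : κ → Module.End F (Additive (Gamma0 N) →+ F)) :
    kerSol T = sol (Set.range fun p : κ × Additive (Gamma0 N) => row (T p.1) p.2) := by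
  ext x
  simp only [mem_kerSol, mem_sol, Set.forall_mem_range, row_dotProduct, Prod.forall,
    DFunLike.ext_iff, AddMonoidHom.zero_apply]

variable {κ : Type} {T : κ → Module.End F (Additive (Gamma0 N) →+ F)}
  {T' : κ → Module.End K (Additive (Gamma0 N) →+ K)}
  (hT : ∀ k φ, mapHom σ (T k φ) = T' k (mapHom σ φ))

include hT in
theorem kerSol_map_eq :
    kerSol T' = sol ((fun v => σ ∘ v) ''
      Set.range fun p : κ × Additive (Gamma0 N) => row (T p.1) p.2) := by
  rw [kerSol_eq_sol, ← Set.range_comp]
  congr 2
  exact funext fun p => (map_row σ (hT p.1) p.2).symm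

include hT in
/-- The dimension of a common kernel is unchanged by extending the field. -/
theorem finrank_kerSol_map : Module.finrank K (kerSol T') = Module.finrank F (kerSol T) := by
  rw [kerSol_map_eq σ hT, kerSol_eq_sol, finrank_sol_map]

include hT in
theorem apply_eq_zero_of_kerSol {P : Module.End F (Additive (Gamma0 N) →+ F)}
    {P' : Module.End K (Additive (Gamma0 N) →+ K)}
    (hP : ∀ φ, mapHom σ (P φ) = P' (mapHom σ φ))
    (h : ∀ x ∈ kerSol T, P (parPhi N F x) = 0) :
    ∀ y ∈ kerSol T', P' (parPhi N K y) = 0 := by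
  intro y hy
  refine AddMonoidHom.ext fun γ => ?_
  rw [AddMonoidHom.zero_apply, ← row_dotProduct, ← map_row σ hP γ]
  refine dotProduct_map_eq_zero σ _ _ (fun x hx => ?_) y (kerSol_map_eq σ hT ▸ hy)
  rw [← kerSol_eq_sol] at hx
  rw [row_dotProduct, h x hx, AddMonoidHom.zero_apply]

end Rows

section Complex

theorem opK_periodHomPair (r : Nat.Primes)
    (p : CuspForm (Gamma0 N) 2 × CuspForm (Gamma0 N) 2) :
    opK N ℂ r (periodHomPair N p) = periodHomPair N (opC N r p.1, opC N r p.2) := by
  have : Fact (r : ℕ).Prime := ⟨r.2⟩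
  have : NeZero (r : ℕ) := ⟨r.2.ne_zero⟩
  show heckeOp N r r.2 ℂ _ = _
  by_cases h : (r : ℕ) ∣ N
  · simp only [opC, heckeOp, h, ↓reduceDIte]
    exact (HeckeCohom.periodHomPair_heckeULin h p).symm
  · simp only [opC, heckeOp, h, ↓reduceDIte]
    exact (HeckeCohom.periodHomPair_heckeTLin r.2 h p).symm

theorem rootsProd_periodHomPair (r : Nat.Primes) (l : List ℂ) :
    ∀ p : CuspForm (Gamma0 N) 2 × CuspForm (Gamma0 N) 2,
      rootsProd (opK N ℂ r) l (periodHomPair N p) =
        periodHomPair N (rootsProd (opC N r) l p.1, rootsProd (opC N r) l p.2) := by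
  induction l with
  | nil => intro p; rfl
  | cons ρ l ih =>
    intro p
    simp only [rootsProd_cons_apply]
    rw [ih, opK_periodHomPair, ← map_smul, ← map_sub]
    rfl

/-- A form is determined by its periods. -/
theorem periodHomPair_injective : Function.Injective (periodHomPair N) :=
  (Fermat.Agent.S21.result N).1

theorem exists_periodHomPair_eq (φ : Additive (Gamma0 N) →+ ℂ)
    (hφ : IsParabolicHom (Gamma0 N) φ) :
    ∃ p, periodHomPair N p = φ := by
  have : φ ∈ LinearMap.range (periodHomPair N) := (Fermat.Agent.S21.result N).2.symm ▸ hφ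
  exact this

theorem periodHomPair_isParabolicHom (p : CuspForm (Gamma0 N) 2 × CuspForm (Gamma0 N) 2) :
    IsParabolicHom (Gamma0 N) (periodHomPair N p) := by
  have h : periodHomPair N p ∈ parabolicHoms ℂ (Gamma0 N) ℂ :=
    (Fermat.Agent.S21.result N).2 ▸ LinearMap.mem_range_self (periodHomPair N) p
  exact h

theorem opK_periodHomPair_eq_smul_iff (r : Nat.Primes) (c : ℂ)
    (p : CuspForm (Gamma0 N) 2 × CuspForm (Gamma0 N) 2) :
    opK N ℂ r (periodHomPair N p) = c • periodHomPair N p ↔
      opC N r p.1 = c • p.1 ∧ opC N r p.2 = c • p.2 := by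
  rw [opK_periodHomPair, ← map_smul, periodHomPair_injective.eq_iff, Prod.ext_iff]
  rfl

end Complex

section System

variable {M : ℕ} [NeZero M] (g : CuspForm (Gamma0 M) 2)

/-- The algebraic numbers in `ℂ`. -/
abbrev AlgC : Type := algebraicClosure ℚ ℂ

variable {g} in
/-- Coefficients of eigenforms as algebraic numbers. -/
def coefF (hg : g.IsNormalizedEigenform) (n : ℕ) : AlgC :=
  ⟨qCoeff ⇑g n, mem_algebraicClosure_iff.mpr
    ((HeckeEigen.isIntegral_qCoeff (CuspIntStr.hasIntegralStructure M 2) hg n).tower_top
      (A := ℚ)).isAlgebraic⟩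

variable {g} in
/-- The coefficients of an eigenform are integral. -/
theorem isIntegral_coefF (hg : g.IsNormalizedEigenform) (n : ℕ) : IsIntegral ℤ (coefF hg n) :=
  (isIntegral_algHom_iff ((algebraicClosure ℚ ℂ).val.toRingHom.toIntAlgHom)
    Subtype.val_injective).mp
    (HeckeEigen.isIntegral_qCoeff (CuspIntStr.hasIntegralStructure M 2) hg n)

variable {g} {S : Finset ℕ} (hg : g.IsNewform)
  (hNS : ∀ q : ℕ, q.Prime → q ∣ N → q ∈ S) {K : Type} [Field K] (σ : AlgC →+* K)

variable (S) in
/-- The conditions of the system outside `S`. -/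
def sysOps (hg : g.IsNormalizedEigenform) {F : Type} [Field F] (τ : AlgC →+* F)
    (l : {l : Nat.Primes // (l : ℕ) ∉ S}) : Module.End F (Additive (Gamma0 N) →+ F) :=
  opK N F l.1 - algebraMap F _ (τ (coefF hg l.1))

/-- The conditions of a full system. -/
def fullOps {F : Type} [Field F] (lam : Nat.Primes → F) (r : Nat.Primes) :
    Module.End F (Additive (Gamma0 N) →+ F) :=
  opK N F r - algebraMap F _ (lam r)

omit [NeZero N] in
/-- The kernel of an operator of the system is an eigenspace. -/
theorem sysOps_apply_eq_zero {hg : g.IsNormalizedEigenform} {F : Type} [Field F]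
    {τ : AlgC →+* F} {l : {l : Nat.Primes // (l : ℕ) ∉ S}} {φ : Additive (Gamma0 N) →+ F} :
    sysOps S hg τ l φ = 0 ↔ opK N F l.1 φ = τ (coefF hg l.1) • φ := by
  simp [sysOps, Module.algebraMap_end_apply, sub_eq_zero]

omit [NeZero N] in
/-- The kernel of an operator of `fullOps` is an eigenspace. -/
theorem fullOps_apply_eq_zero {F : Type} [Field F] {lam : Nat.Primes → F} {r : Nat.Primes}
    {φ : Additive (Gamma0 N) →+ F} : fullOps lam r φ = 0 ↔ opK N F r φ = lam r • φ := by
  simp [fullOps, Module.algebraMap_end_apply, sub_eq_zero]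

omit [NeZero N] in
/-- `mapHom` commutes with operators shifted by scalars. -/
theorem mapHom_sub_algebraMap {F L : Type} [Field F] [Field L] (τ : F →+* L) (r : Nat.Primes)
    (c : F) (φ : Additive (Gamma0 N) →+ F) :
    mapHom τ ((opK N F r - algebraMap F _ c) φ) =
      (opK N L r - algebraMap L _ (τ c)) (mapHom τ φ) := by
  simp only [LinearMap.sub_apply, Module.algebraMap_end_apply, map_sub, mapHom_opK, mapHom_smul]

include hNS in
/-- A relation on cusp forms holds on parabolic homomorphisms over any field. -/
theorem rootsProd_opK_eq_zero (r : Nat.Primes) (l : List AlgC)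
    (h : ∀ f ∈ system N g S, rootsProd (opC N r) (l.map (algebraicClosure ℚ ℂ).val) f = 0) :
    ∀ y ∈ kerSol (sysOps (N := N) S hg.1 σ),
      rootsProd (opK N K r) (l.map σ) (parPhi N K y) = 0 := by
  let v : AlgC →+* ℂ := (algebraicClosure ℚ ℂ).val.toRingHom
  refine apply_eq_zero_of_kerSol σ
    (fun k φ => mapHom_sub_algebraMap σ k.1 (coefF hg.1 k.1) φ)
    (fun φ => mapHom_rootsProd σ r l φ) fun x hx => ?_
  have hinj : Function.Injective (mapHom (N := N) v) := fun a b hab =>
    AddMonoidHom.ext fun γ => v.injective (DFunLike.congr_fun hab γ)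
  refine hinj ?_
  rw [map_zero, mapHom_rootsProd]
  set φ := mapHom v (parPhi N AlgC x) with hφdef
  obtain ⟨p, hp⟩ := exists_periodHomPair_eq φ (by
    rw [hφdef, mapHom_parPhi]; exact parPhi_isParabolicHom _)
  have hsys : p.1 ∈ system N g S ∧ p.2 ∈ system N g S := by
    simp only [mem_system_iff_opC hNS]
    have key : ∀ k : Nat.Primes, (k : ℕ) ∉ S →
        opC N k p.1 = qCoeff ⇑g k • p.1 ∧ opC N k p.2 = qCoeff ⇑g k • p.2 := by
      intro k hk
      rw [← opK_periodHomPair_eq_smul_iff, hp, hφdef, ← mapHom_opK]
      have hx' := mem_kerSol.mp hx ⟨k, hk⟩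
      rw [LinearMap.sub_apply, Module.algebraMap_end_apply, sub_eq_zero] at hx'
      rw [hx', mapHom_smul]
      rfl
    exact ⟨fun k hk => (key k hk).1, fun k hk => (key k hk).2⟩
  rw [← hp, rootsProd_periodHomPair]
  have h1 := h _ hsys.1
  have h2 := h _ hsys.2
  change rootsProd (opC N r) (l.map v) p.1 = 0 at h1
  change rootsProd (opC N r) (l.map v) p.2 = 0 at h2
  rw [h1, h2]
  exact map_zero (periodHomPair N)

/-- A full system of eigenvalues occurs at most twice in parabolic homomorphisms. -/
theorem finrank_kerSol_fullOps_le (lam : Nat.Primes → AlgC) :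
    Module.finrank K (kerSol (fullOps (N := N) fun r => σ (lam r))) ≤ 2 := by
  let v : AlgC →+* ℂ := (algebraicClosure ℚ ℂ).val.toRingHom
  rw [finrank_kerSol_map σ (T := fullOps (N := N) lam)
      (T' := fullOps (N := N) fun r => σ (lam r)) (fun r φ => mapHom_sub_algebraMap σ r (lam r) φ),
    ← finrank_kerSol_map v (T := fullOps (N := N) lam)
      (T' := fullOps (N := N) fun r => v (lam r)) (fun r φ => mapHom_sub_algebraMap v r (lam r) φ)]
  set W := kerSol (fullOps (N := N) fun r => v (lam r))
  let e := LinearEquiv.ofInjective (periodHomPair N) periodHomPair_injective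
  let pr : W →ₗ[ℂ] LinearMap.range (periodHomPair N) :=
    ((parPhi N ℂ).comp W.subtype).codRestrict _ fun x => by
      obtain ⟨p, hp⟩ := exists_periodHomPair_eq _ (parPhi_isParabolicHom (x : ParIdx N → ℂ))
      exact ⟨p, hp⟩
  let c1 : CuspForm (Gamma0 N) 2 →ₗ[ℂ] ℂ := (LinearMap.proj 1).comp (coeffMap N)
  let Ψ : W →ₗ[ℂ] ℂ × ℂ := (c1.prodMap c1).comp (e.symm.toLinearMap.comp pr)
  have hΨ : Function.Injective Ψ := by
    rw [injective_iff_map_eq_zero]
    intro x hx
    set p := e.symm (pr x) with hp
    have hpx : periodHomPair N p = parPhi N ℂ x := congrArg Subtype.val (e.apply_symm_apply (pr x))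
    have heig : ∀ r, opC N r p.1 = v (lam r) • p.1 ∧ opC N r p.2 = v (lam r) • p.2 := fun r => by
      rw [← opK_periodHomPair_eq_smul_iff, hpx, ← fullOps_apply_eq_zero (lam := fun r => v (lam r))]
      exact mem_kerSol.mp x.2 r
    have h1 : p.1 = 0 := eq_zero_of_eigen _ (fun r => (heig r).1) (congrArg Prod.fst hx)
    have h2 : p.2 = 0 := eq_zero_of_eigen _ (fun r => (heig r).2) (congrArg Prod.snd hx)
    refine Subtype.ext (parPhi_injective ?_)
    rw [← hpx, show p = 0 from Prod.ext h1 h2, map_zero, ZeroMemClass.coe_zero, map_zero]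
  refine (LinearMap.finrank_le_finrank_of_injective hΨ).trans ?_
  rw [Module.finrank_prod, Module.finrank_self]

/-- The system of a normalised eigenform of the level itself occurs at least twice. -/
theorem two_le_finrank_kerSol_of_eigen (hg' : g.IsNormalizedEigenform) (hMN : M = N) :
    2 ≤ Module.finrank K (kerSol (fullOps (N := N) fun r => σ (coefF hg' r))) := by
  subst hMN
  let v : AlgC →+* ℂ := (algebraicClosure ℚ ℂ).val.toRingHom
  rw [finrank_kerSol_map σ (T := fullOps (N := M) fun r => coefF hg' r)
      (T' := fullOps (N := M) fun r => σ (coefF hg' r)) (fun r φ => mapHom_sub_algebraMap σ r (coefF hg' r) φ),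
    ← finrank_kerSol_map v (T := fullOps (N := M) fun r => coefF hg' r)
      (T' := fullOps (N := M) fun r => v (coefF hg' r)) (fun r φ => mapHom_sub_algebraMap v r (coefF hg' r) φ)]
  set W := kerSol (fullOps (N := M) fun r => v (coefF hg' r))
  let L : ℂ × ℂ →ₗ[ℂ] (Additive (Gamma0 M) →+ ℂ) :=
    (periodHomPair M).comp ((LinearMap.toSpanSingleton ℂ _ g).prodMap
      (LinearMap.toSpanSingleton ℂ _ g))
  let coord : (Additive (Gamma0 M) →+ ℂ) →ₗ[ℂ] (ParIdx M → ℂ) :=
    { toFun := fun φ i => φ (parGen M i)
      map_add' := fun _ _ => rfl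
      map_smul' := fun _ _ => rfl }
  have hL : ∀ z, parPhi M ℂ (coord (L z)) = L z := fun z =>
    parPhi_eq _ (periodHomPair_isParabolicHom _)
  have hop : ∀ r : Nat.Primes, opC M r g = qCoeff ⇑g r • g := fun r => by
    have : NeZero (r : ℕ) := ⟨r.2.ne_zero⟩
    by_cases h : (r : ℕ) ∣ M
    · simp only [opC, h, ↓reduceDIte]
      exact Newforms.heckeULin_eq_smul hg' r.2 h
    · simp only [opC, h, ↓reduceDIte]
      exact Newforms.heckeTLin_eq_smul hg' r.2 h
  have hmem : ∀ z, coord (L z) ∈ W := fun z => by
    refine mem_kerSol.mpr fun r => ?_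
    rw [fullOps_apply_eq_zero, hL]
    refine (opK_periodHomPair_eq_smul_iff r _ _).mpr ⟨?_, ?_⟩ <;>
    · show opC M r ((_ : ℂ) • g) = _
      rw [map_smul, hop, smul_comm]
      rfl
  let Λ : ℂ × ℂ →ₗ[ℂ] W := (coord.comp L).codRestrict W hmem
  have hΛ : Function.Injective Λ := by
    rw [injective_iff_map_eq_zero]
    intro z hz
    have h0 : coord (L z) = 0 := congrArg Subtype.val hz
    have hz' : L z = 0 := by rw [← hL, h0, map_zero]
    have h1 := periodHomPair_injective (hz'.trans (map_zero (periodHomPair M)).symm)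
    exact Prod.ext ((smul_eq_zero.mp (congrArg Prod.fst h1)).resolve_right hg'.ne_zero)
      ((smul_eq_zero.mp (congrArg Prod.snd h1)).resolve_right hg'.ne_zero)
  have h := LinearMap.finrank_le_finrank_of_injective hΛ
  rwa [Module.finrank_prod, Module.finrank_self] at h

end System

end Fermat.Agent.Lifting.Mult
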