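import Fermat.Agent.Lifting.Constructors
import Fermat.Agent.Lifting.Mult.Transfer
import Fermat.Agent.Lifting.Mult.Good

/-!
# Eigen submodules of a level as lattices of parabolic homomorphisms

The localisation of `Hom(Γ₀(N), 𝒪)` at a system which is not Eisenstein embeds, equivariantly for
all Hecke operators, into the parabolic homomorphisms, and `X r - ã` is topologically nilpotent on
it when `ã` lifts the residual value at `r`.
-/

set_option autoImplicit false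

noncomputable section

open IsLocalRing CongruenceSubgroup ModularCurve.Period
open scoped TensorProduct MatrixGroups

namespace Fermat.Agent.Lifting.Mult

open Fermat.Agent.GroupH1 (GammaH HMod HeckePoly eigIdeal LocM toLocM toLocM_surjective)

variable {𝒪 : Type} [CommRing 𝒪] [IsDomain 𝒪] [IsDiscreteValuationRing 𝒪]
  [IsAdicComplete (maximalIdeal 𝒪) 𝒪] [CharZero 𝒪] {N : ℕ} [NeZero N]
  {a : Nat.Primes → ResidueField 𝒪}

variable (N a) in
/-- The part of the level with the eigenvalues `c l` at the primes `l ∉ S`. -/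
def goodPart (S : Finset ℕ) (c : Nat.Primes → 𝒪) : Submodule 𝒪 (levelLoc 𝒪 N a) where
  carrier := {x | ∀ l : Nat.Primes, (l : ℕ) ∉ S → (MvPolynomial.X l : HeckePoly 𝒪) • x = c l • x}
  add_mem' hx hy l hl := by rw [smul_add, hx l hl, hy l hl, smul_add]
  zero_mem' l _ := by rw [smul_zero, smul_zero]
  smul_mem' t x hx l hl := by rw [smul_comm, hx l hl, smul_comm]

omit [IsAdicComplete (maximalIdeal 𝒪) 𝒪] [CharZero 𝒪] [NeZero N] in
theorem poly_smul_mem_goodPart {S : Finset ℕ} {c : Nat.Primes → 𝒪} (P : HeckePoly 𝒪)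
    {x : levelLoc 𝒪 N a} (hx : x ∈ goodPart N a S c) : P • x ∈ goodPart N a S c := fun l hl => by
  rw [smul_comm, hx l hl, smul_comm]

/-- `X r` on the eigen part. -/
def opW (S : Finset ℕ) (c : Nat.Primes → 𝒪) (r : Nat.Primes) :
    Module.End 𝒪 (goodPart N a S c) where
  toFun x := ⟨(MvPolynomial.X r : HeckePoly 𝒪) • (x : levelLoc 𝒪 N a),
    poly_smul_mem_goodPart _ x.2⟩
  map_add' _ _ := Subtype.ext (smul_add _ _ _)
  map_smul' t _ := Subtype.ext (smul_comm _ t _)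

omit [IsAdicComplete (maximalIdeal 𝒪) 𝒪] [CharZero 𝒪] [NeZero N] in
theorem coe_opW_sub_pow {S : Finset ℕ} {c : Nat.Primes → 𝒪} (r : Nat.Primes) (t : 𝒪) :
    ∀ (n : ℕ) (x : goodPart N a S c),
      ((((opW S c r - algebraMap 𝒪 _ t) ^ n) x : goodPart N a S c) : levelLoc 𝒪 N a) =
        ((MvPolynomial.X r - MvPolynomial.C t : HeckePoly 𝒪) ^ n) • (x : levelLoc 𝒪 N a)
  | 0, x => (one_smul _ _).symm
  | n + 1, x => by
    rw [pow_succ', pow_succ', Module.End.mul_apply, mul_smul, ← coe_opW_sub_pow r t n x, sub_smul,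
      ← MvPolynomial.algebraMap_eq, algebraMap_smul]
    rfl

omit [IsAdicComplete (maximalIdeal 𝒪) 𝒪] [CharZero 𝒪] [NeZero N] in
theorem aeval_notMem_eigIdeal {y : HeckePoly 𝒪} (hy : y ∈ eigIdeal a) {Q : Polynomial 𝒪}
    (hQ : residue 𝒪 (Q.coeff 0) ≠ 0) : Polynomial.aeval y Q ∉ eigIdeal a := fun h => hQ (by
  let χ : HeckePoly 𝒪 →ₐ[𝒪] ResidueField 𝒪 := MvPolynomial.aeval a
  have hχ : ∀ z ∈ eigIdeal a, χ z = 0 := fun z hz => hz
  have h1 := hχ _ h
  rw [← Polynomial.aeval_algHom_apply, hχ y hy, ← Polynomial.coeff_zero_eq_aeval_zero'] at h1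
  exact h1)

omit [CharZero 𝒪] in
/-- `X r - ã` is topologically nilpotent on the eigen part when `ã` lifts `a r`. -/
theorem exists_pow_eq_smul {S : Finset ℕ} {c : Nat.Primes → 𝒪} {ϖ : 𝒪} (hϖ : Irreducible ϖ)
    (r : Nat.Primes) {t : 𝒪} (ht : residue 𝒪 t = a r) :
    ∃ n : ℕ, n ≠ 0 ∧ ∀ x : goodPart N a S c, ∃ x',
      ((opW S c r - algebraMap 𝒪 _ t) ^ n) x = ϖ • x' := by
  set y : HeckePoly 𝒪 := MvPolynomial.X r - MvPolynomial.C t
  have hy : y ∈ eigIdeal a := GroupH1.X_sub_C_mem_eigIdeal_iff.mpr ht.symm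
  let L : HeckePoly 𝒪 →ₐ[𝒪] Module.End 𝒪 (levelLoc 𝒪 N a) :=
    Algebra.lsmul 𝒪 𝒪 (levelLoc 𝒪 N a)
  obtain ⟨P, hP, hP0⟩ := LinearMap.exists_monic_and_aeval_eq_zero 𝒪 (L y)
  rw [Polynomial.aeval_algHom_apply] at hP0
  obtain ⟨n, Q, R, hQ, rfl⟩ := exists_pow_mul_eq hP hϖ
  have hQm := aeval_notMem_eigIdeal hy hQ
  obtain ⟨s, u, hu, hinv⟩ := GroupH1.exists_smul_inv 𝒪 (V := levelLoc 𝒪 N a) (eigIdeal a) hQm
  have hinv' : ∀ z : levelLoc 𝒪 N a, (s * Polynomial.aeval y Q) • z = z := fun z =>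
    sub_eq_zero.mp (GroupH1.smul_locM_eq_zero (eigIdeal a) hu (by rw [smul_sub, hinv, sub_self]))
  refine ⟨n + 1, Nat.succ_ne_zero n, fun x => ⟨⟨(-(y * s * Polynomial.aeval y R) : HeckePoly 𝒪) •
    (x : levelLoc 𝒪 N a), poly_smul_mem_goodPart _ x.2⟩, Subtype.ext ?_⟩⟩
  rw [coe_opW_sub_pow]
  have h0 : (Polynomial.aeval y (Polynomial.X ^ n * Q + Polynomial.C ϖ * R)) •
      (x : levelLoc 𝒪 N a) = 0 := LinearMap.congr_fun hP0 _
  rw [map_add, map_mul, map_mul, map_pow, Polynomial.aeval_X, Polynomial.aeval_C, add_smul,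
    add_eq_zero_iff_eq_neg] at h0
  show y ^ (n + 1) • (x : levelLoc 𝒪 N a) = ϖ • _
  calc y ^ (n + 1) • (x : levelLoc 𝒪 N a)
      = (s * Polynomial.aeval y Q) • y ^ (n + 1) • (x : levelLoc 𝒪 N a) := (hinv' _).symm
    _ = (y * s) • ((y ^ n * Polynomial.aeval y Q) • (x : levelLoc 𝒪 N a)) := by
        rw [← mul_smul, ← mul_smul]; congr 1; ring
    _ = ϖ • ((-(y * s * Polynomial.aeval y R) : HeckePoly 𝒪) • (x : levelLoc 𝒪 N a)) := by
        rw [h0, ← neg_smul, ← mul_smul, ← algebraMap_smul (HeckePoly 𝒪) ϖ, ← mul_smul]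
        congr 1
        ring

/-- The level embeds equivariantly into the parabolic homomorphisms. -/
theorem exists_embedding
    (hne : ∃ l : Nat.Primes, ((l : ℕ) : ZMod N) = 1 ∧ a l ≠ ((l : ℕ) : ResidueField 𝒪) + 1) :
    ∃ J : levelLoc 𝒪 N a →ₗ[HeckePoly 𝒪] HMod N (⊤ : Subgroup (ZMod N)ˣ) 𝒪,
      Function.Injective J ∧ ∀ x, IsParabolicHom (Gamma0 N) (gamma0Hom (J x)) := by
  classical
  let V := HMod N (⊤ : Subgroup (ZMod N)ˣ) 𝒪
  let q : V →ₗ[HeckePoly 𝒪] levelLoc 𝒪 N a := toLocM (eigIdeal a)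
  have hfg : ((LinearMap.ker q).restrictScalars 𝒪).FG :=
    (isNoetherian_of_isNoetherianRing_of_finite 𝒪 V).noetherian _
  obtain ⟨s, hs⟩ := hfg
  have hkill : ∀ v : s, ∃ u, u ∉ eigIdeal a ∧ u • (v : V) = 0 := fun v => by
    have hv : (v : V) ∈ (LinearMap.ker q).restrictScalars 𝒪 := hs ▸ Submodule.subset_span v.2
    exact (GroupH1.toLocM_eq_zero_iff _).mp hv
  choose u hu hu0 using hkill
  set e : HeckePoly 𝒪 := ∏ v, u v
  have he : e ∉ eigIdeal a := fun h => by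
    obtain ⟨v, -, hv⟩ := (Ideal.IsPrime.prod_mem_iff).mp h
    exact hu v hv
  have hker : LinearMap.ker q ≤ LinearMap.ker (LinearMap.lsmul (HeckePoly 𝒪) V e) := by
    intro v hv
    replace hv : v ∈ Submodule.span 𝒪 (s : Set V) := hs ▸ hv
    refine Submodule.span_induction (p := fun w _ => e • w = 0) (fun w hw => ?_) (smul_zero e)
      (fun _ _ _ _ h1 h2 => by rw [smul_add, h1, h2, add_zero])
      (fun t _ _ h1 => by rw [smul_comm, h1, smul_zero]) hv
    have h : e = (∏ v ∈ Finset.univ.erase ⟨w, hw⟩, u v) * u ⟨w, hw⟩ :=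
      (Finset.prod_erase_mul _ _ (Finset.mem_univ _)).symm
    rw [h, mul_smul, hu0 ⟨w, hw⟩, smul_zero]
  let J₀ : levelLoc 𝒪 N a →ₗ[HeckePoly 𝒪] V :=
    ((LinearMap.ker q).liftQ _ hker).comp
      (q.quotKerEquivOfSurjective (toLocM_surjective 𝒪 (eigIdeal a))).symm.toLinearMap
  have hqJ : ∀ x, q (J₀ x) = e • x := fun x => by
    obtain ⟨v, rfl⟩ := toLocM_surjective 𝒪 (eigIdeal a) (V := V) x
    have h : J₀ (q v) = e • v := by
      show (LinearMap.ker q).liftQ _ hker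
        ((q.quotKerEquivOfSurjective (toLocM_surjective 𝒪 (eigIdeal a))).symm (q v)) = _
      rw [show (q.quotKerEquivOfSurjective (toLocM_surjective 𝒪 (eigIdeal a))).symm (q v) =
        Submodule.Quotient.mk v from by rw [LinearEquiv.symm_apply_eq]; rfl]
      rfl
    rw [h, map_smul]
  obtain ⟨l, hl, hla⟩ := hne
  set e₂ : HeckePoly 𝒪 := MvPolynomial.X l - MvPolynomial.C (((l : ℕ) : 𝒪) + 1)
  have he₂ : e₂ ∉ eigIdeal a := by
    rw [GroupH1.X_sub_C_mem_eigIdeal_iff]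
    simpa using hla
  refine ⟨e₂ • J₀, ?_, fun x => isParabolicHom_gamma0Hom_smul hl (J₀ x)⟩
  rw [injective_iff_map_eq_zero]
  intro x hx
  have h : (e₂ * e) • x = 0 := by
    rw [mul_smul, ← hqJ, ← map_smul, show e₂ • J₀ x = 0 from hx, map_zero]
  exact GroupH1.smul_locM_eq_zero (eigIdeal a)
    (fun h => ((Ideal.IsMaximal.isPrime inferInstance).mem_or_mem h).elim he₂ he) h

variable (K : Type) [Field K] [CharZero K] [Algebra 𝒪 K] [FaithfulSMul 𝒪 K]

omit [CharZero K] in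
/-- The eigen part spans a space of parabolic homomorphisms over `K`. -/
theorem exists_coord
    (hne : ∃ l : Nat.Primes, ((l : ℕ) : ZMod N) = 1 ∧ a l ≠ ((l : ℕ) : ResidueField 𝒪) + 1)
    (S : Finset ℕ) (c : Nat.Primes → 𝒪) :
    ∃ Θ : K ⊗[𝒪] goodPart N a S c →ₗ[K] (ParIdx N → K), Function.Injective Θ ∧
      ∀ r v, parPhi N K (Θ ((opW S c r).baseChange K v)) = opK N K r (parPhi N K (Θ v)) := by
  classical
  obtain ⟨J, hJ, hJpar⟩ := exists_embedding (𝒪 := 𝒪) hne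
  let C : goodPart N a S c →ₗ[𝒪] (ParIdx N → 𝒪) :=
    { toFun := fun w i => gamma0Hom (J w) (parGen N i)
      map_add' := fun w w' => funext fun i => by
        rw [Submodule.coe_add, map_add, map_add]; rfl
      map_smul' := fun t w => funext fun i => by
        rw [Submodule.coe_smul, LinearMap.map_smul_of_tower]; rfl }
  have hC : Function.Injective C := fun w w' h => by
    refine Subtype.ext (hJ (gamma0Hom_injective ?_))
    rw [← parPhi_eq _ (hJpar w), ← parPhi_eq _ (hJpar w')]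
    exact congrArg (parPhi N 𝒪) h
  let Θ : K ⊗[𝒪] goodPart N a S c →ₗ[K] (ParIdx N → K) :=
    (TensorProduct.piScalarRight 𝒪 K K (ParIdx N)).toLinearMap.comp (C.baseChange K)
  have hΘ1 : ∀ w, Θ (1 ⊗ₜ w) = algebraMap 𝒪 K ∘ C w := fun w => funext fun i => by
    simp [Θ, Algebra.smul_def]
  refine ⟨Θ, (TensorProduct.piScalarRight 𝒪 K K (ParIdx N)).injective.comp ?_, fun r v => ?_⟩
  · rw [LinearMap.baseChange_eq_ltensor]
    exact Module.Flat.lTensor_preserves_injective_linearMap C hC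
  have key : ∀ w, parPhi N K (Θ (1 ⊗ₜ opW S c r w)) = opK N K r (parPhi N K (Θ (1 ⊗ₜ w))) := by
    intro w
    rw [hΘ1, hΘ1, ← mapHom_parPhi, ← mapHom_parPhi, ← mapHom_opK]
    congr 1
    rw [show (C (opW S c r w)) = fun i => gamma0Hom (J (opW S c r w : levelLoc 𝒪 N a)) (parGen N i)
        from rfl, parPhi_eq _ (hJpar _),
      show C w = fun i => gamma0Hom (J (w : levelLoc 𝒪 N a)) (parGen N i) from rfl,
      parPhi_eq _ (hJpar _)]
    show gamma0Hom (J ((MvPolynomial.X r : HeckePoly 𝒪) • (w : levelLoc 𝒪 N a))) = _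
    rw [map_smul, gamma0Hom_X_smul]
    rfl
  induction v using TensorProduct.induction_on with
  | zero => simp only [map_zero]
  | add x y hx hy => simp only [map_add, hx, hy]
  | tmul k w =>
    rw [LinearMap.baseChange_tmul, ← mul_one k, ← smul_eq_mul, ← TensorProduct.smul_tmul',
      ← TensorProduct.smul_tmul', map_smul, map_smul, map_smul, map_smul, map_smul, key]

end Fermat.Agent.Lifting.Mult
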