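import Fermat.Agent.Lifting.Mult.Lattice

/-!
# The operators on the eigen part of a level

At every prime the operator on the eigen part, extended to a field, is a scalar, as soon as all but
one of the roots allowed by the oldforms are incongruent to the residual value.
-/

set_option autoImplicit false

noncomputable section

open IsLocalRing CongruenceSubgroup ModularCurve.Period ModularFormClass
open scoped TensorProduct MatrixGroups

namespace Fermat.Agent.Lifting.Mult

open Fermat.Agent.GroupH1 (HeckePoly)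

instance isAlgClosed_algC : IsAlgClosed AlgC :=
  (algebraicClosure.isAlgClosure ℚ ℂ).isAlgClosed

/-- The two roots of a Hecke polynomial at `r`. -/
theorem exists_roots (A : AlgC) (r : ℕ) : ∃ α β : AlgC, α + β = A ∧ α * β = r := by
  obtain ⟨s, hs⟩ := IsAlgClosed.exists_pow_nat_eq (A ^ 2 - 4 * (r : AlgC)) (n := 2) two_pos
  exact ⟨(A + s) / 2, (A - s) / 2, by ring, by linear_combination (-1 / 4 : AlgC) * hs⟩

variable {𝒪 : Type} [CommRing 𝒪] [IsDomain 𝒪] [IsDiscreteValuationRing 𝒪]
  [IsAdicComplete (maximalIdeal 𝒪) 𝒪] [CharZero 𝒪] {N : ℕ} [NeZero N]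
  {a : Nat.Primes → ResidueField 𝒪} {K : Type} [Field K] [CharZero K] [Algebra 𝒪 K]
  [FaithfulSMul 𝒪 K] {M : ℕ} [NeZero M] {g : CuspForm (Gamma0 M) 2} {S : Finset ℕ}
  {c : Nat.Primes → 𝒪}
  (hne : ∃ l : Nat.Primes, ((l : ℕ) : ZMod N) = 1 ∧ a l ≠ ((l : ℕ) : ResidueField 𝒪) + 1)
  (hg : g.IsNewform) (hMN : M ∣ N) (hS : ∀ q ∈ S, q.Prime)
  (hNS : ∀ q : ℕ, q.Prime → q ∣ N → q ∈ S) (σ : AlgC →+* K)
  (hc : ∀ l : Nat.Primes, (l : ℕ) ∉ S → algebraMap 𝒪 K (c l) = σ (coefF hg.1 l))

instance goodPart_free : Module.Free 𝒪 (goodPart N a S c) :=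
  Module.free_of_finite_type_torsion_free'

include hc in
omit [CharZero K] in
/-- The coordinates of the eigen part satisfy the system. -/
theorem exists_coord_mem (hne : ∃ l : Nat.Primes, ((l : ℕ) : ZMod N) = 1 ∧
    a l ≠ ((l : ℕ) : ResidueField 𝒪) + 1) :
    ∃ Θ : K ⊗[𝒪] goodPart N a S c →ₗ[K] (ParIdx N → K), Function.Injective Θ ∧
      (∀ r v, parPhi N K (Θ ((opW S c r).baseChange K v)) = opK N K r (parPhi N K (Θ v))) ∧
      ∀ v, Θ v ∈ kerSol (sysOps (N := N) S hg.1 σ) := by
  obtain ⟨Θ, hΘ, hop⟩ := exists_coord (𝒪 := 𝒪) K hne S c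
  refine ⟨Θ, hΘ, hop, fun v => mem_kerSol.mpr fun l => ?_⟩
  rw [sysOps_apply_eq_zero, ← hop, ← hc l.1 l.2, ← map_smul, ← map_smul]
  congr 2
  rw [show opW S c l.1 = c l.1 • (LinearMap.id : Module.End 𝒪 (goodPart N a S c)) from
      LinearMap.ext fun x => Subtype.ext (x.2 l.1 l.2), LinearMap.baseChange_smul,
    LinearMap.smul_apply, LinearMap.baseChange_id, LinearMap.id_apply, algebraMap_smul]

include hne hc hNS in
omit [CharZero K] in
/-- The relations of the oldforms hold on the eigen part. -/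
theorem rootsProd_opW_eq_zero (r : Nat.Primes) (l : List AlgC)
    (h : ∀ f ∈ system N g S, rootsProd (opC N r) (l.map (algebraicClosure ℚ ℂ).val) f = 0)
    (v : K ⊗[𝒪] goodPart N a S c) :
    rootsProd ((opW S c r).baseChange K) (l.map σ) v = 0 := by
  obtain ⟨Θ, hΘ, hop, hsys⟩ := exists_coord_mem (𝒪 := 𝒪) hg σ hc hne
  refine hΘ (parPhi_injective ?_)
  rw [map_zero, map_zero]
  exact (map_rootsProd ((parPhi N K).comp Θ) (hop r) (l.map σ) v).trans
    (rootsProd_opK_eq_zero hg hNS σ r l h _ (hsys v))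

variable (c) in
omit [CharZero K] in
omit [CharZero 𝒪] in
/-- An eigenvalue on the eigen part is congruent to the residual value. -/
theorem goodRoot_of_eigen {r : Nat.Primes} {t : 𝒪} (ht : residue 𝒪 t = a r) {ρ : K}
    {v : K ⊗[𝒪] goodPart N a S c} (hv : v ≠ 0)
    (h : (opW S c r).baseChange K v = ρ • v) : GoodRoot t ρ := by
  obtain ⟨ϖ, hϖ⟩ := IsDiscreteValuationRing.exists_irreducible 𝒪
  obtain ⟨n, hn, hnil⟩ := exists_pow_eq_smul (N := N) (S := S) (c := c) hϖ r ht
  exact goodRoot_of_eigenvector hϖ _ t hn hnil hv h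

include hne hc hNS in
omit [CharZero K] in
/-- Only the first root survives if the others are not congruent to the residual value. -/
theorem opW_eq_smul_of_bad (r : Nat.Primes) (lam : AlgC) (bad : List AlgC) {t : 𝒪}
    (ht : residue 𝒪 t = a r) (hbad : ∀ ρ ∈ bad, ¬ GoodRoot t (σ ρ))
    (h : ∀ f ∈ system N g S,
      rootsProd (opC N r) ((lam :: bad).map (algebraicClosure ℚ ℂ).val) f = 0) :
    ∀ v : K ⊗[𝒪] goodPart N a S c, (opW S c r).baseChange K v = σ lam • v := by
  refine eq_smul_of_rootsProd _ _ (bad.map σ) (fun ρ hρ v hv => ?_)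
    fun v => rootsProd_opW_eq_zero hne hg hNS σ hc r (lam :: bad) h v
  obtain ⟨ρ', hρ', rfl⟩ := List.mem_map.mp hρ
  by_contra h0
  exact hbad ρ' hρ' (goodRoot_of_eigen c ht h0 hv)

include hne hc hNS hS hMN in
omit [CharZero K] in
/-- At a prime with a single root. -/
theorem opW_eq_smul_coefF (r : Nat.Primes)
    (hr : ¬ (r : ℕ) ∣ N ∨ (M.factorization r = 1 ∧ N.factorization r = 1))
    (v : K ⊗[𝒪] goodPart N a S c) :
    (opW S c r).baseChange K v = σ (coefF hg.1 r) • v := by
  obtain ⟨t, ht⟩ := residue_surjective (a r)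
  refine opW_eq_smul_of_bad hne hg hNS σ hc r _ [] ht (by simp) ?_ v
  intro f hf
  rcases hr with hr | ⟨hrM, hrN⟩
  · exact relation_good hg hMN hS hNS r hr f hf
  · exact relation_new hg hMN hS hNS r hrN hrM f hf

omit [IsDomain 𝒪] [IsDiscreteValuationRing 𝒪] [IsAdicComplete (maximalIdeal 𝒪) 𝒪] [CharZero 𝒪] [CharZero K] [FaithfulSMul 𝒪 K] in
theorem isIntegral_map_coefF (n : ℕ) (hg : g.IsNormalizedEigenform) :
    IsIntegral 𝒪 (σ (coefF hg n)) :=
  ((isIntegral_coefF hg n).map σ.toIntAlgHom).tower_top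

include hne hc hNS hS hMN in
/-- Every operator is a scalar on the eigen part under the residual hypotheses. -/
theorem exists_opW_eq_smul
    (hloc : ∀ r : Nat.Primes, (r : ℕ) ∣ N →
      (M.factorization r = 1 ∧ N.factorization r = 1) ∨
      (M.factorization r = 0 ∧ N.factorization r = 1 ∧
        a r ^ 2 ≠ ((r : ℕ) : ResidueField 𝒪)) ∨
      (M.factorization r ≤ 1 ∧ N.factorization r = 2 ∧ a r = 0 ∧
        ((r : ℕ) : ResidueField 𝒪) ≠ 0))
    (r : Nat.Primes) :
    ∃ lam : AlgC, ∀ v : K ⊗[𝒪] goodPart N a S c,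
      (opW S c r).baseChange K v = σ lam • v := by
  by_cases hrN : (r : ℕ) ∣ N
  swap
  · exact ⟨_, opW_eq_smul_coefF hne hg hMN hS hNS σ hc r (.inl hrN)⟩
  obtain ⟨t, ht⟩ := residue_surjective (a r)
  set A := coefF hg.1 r with hA
  rcases hloc r hrN with hr | ⟨hM0, hN1, har⟩ | ⟨hM1, hN2, ha0, hr0⟩
  · exact ⟨_, opW_eq_smul_coefF hne hg hMN hS hNS σ hc r (.inr hr)⟩
  · obtain ⟨α, β, hsum, hprod⟩ := exists_roots A r
    have key : ∀ α β : AlgC, α + β = A → α * β = (r : ℕ) → ¬ GoodRoot t (σ β) →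
        ∀ v : K ⊗[𝒪] goodPart N a S c, (opW S c r).baseChange K v = σ α • v := by
      intro α β hsum hprod hβ
      refine opW_eq_smul_of_bad hne hg hNS σ hc r α [β] ht (by simpa using hβ) fun f hf => ?_
      exact relation_old hg hMN hS hNS r hN1 hM0 (congrArg Subtype.val hsum)
        (by simpa using congrArg Subtype.val hprod) f hf
    by_cases hβ : GoodRoot t (σ β)
    · refine ⟨β, key β α (by rw [add_comm, hsum]) (by rw [mul_comm, hprod]) fun hα => har ?_⟩
      have h := residue_eq_of_goodRoot (hα.mul hβ) (x := ((r : ℕ) : 𝒪))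
        (by rw [map_natCast, ← map_mul, hprod, map_natCast])
      rw [map_natCast, map_mul, ht] at h
      rw [sq, ← h]
    · exact ⟨α, key α β hsum hprod hβ⟩
  · have ht0 : residue 𝒪 (0 : 𝒪) = a r := by rw [map_zero, ha0]
    refine ⟨0, ?_⟩
    rcases Nat.le_one_iff_eq_zero_or_eq_one.mp hM1 with hM0 | hM1
    · obtain ⟨α, β, hsum, hprod⟩ := exists_roots A r
      have key : ∀ α β : AlgC, α + β = A → α * β = (r : ℕ) → ¬ GoodRoot (0 : 𝒪) (σ α) := by
        intro α β hsum hprod hα
        refine hr0 ?_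
        have hβ : IsIntegral 𝒪 (σ β) := by
          have hβ : β = A - α := by rw [← hsum]; ring
          rw [hβ, map_sub]
          exact (isIntegral_map_coefF σ r hg.1).sub hα.isIntegral
        have h := residue_eq_of_goodRoot (hα.mul_integral hβ) (x := ((r : ℕ) : 𝒪))
          (by rw [map_natCast, ← map_mul, hprod, map_natCast])
        rwa [map_natCast, map_zero] at h
      refine opW_eq_smul_of_bad hne hg hNS σ hc r 0 [α, β] ht0 ?_ fun f hf => ?_
      · simp only [List.mem_cons, List.not_mem_nil, or_false, forall_eq_or_imp, forall_eq]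
        exact ⟨key α β hsum hprod, key β α (by rw [add_comm, hsum]) (by rw [mul_comm, hprod])⟩
      · exact relation_sq_old hg hMN hS hNS r hN2 hM0 (congrArg Subtype.val hsum)
          (by simpa using congrArg Subtype.val hprod) f hf
    · refine opW_eq_smul_of_bad hne hg hNS σ hc r 0 [A] ht0 ?_ fun f hf => ?_
      · simp only [List.mem_singleton, forall_eq]
        intro hgood
        have hA2 : A * A = 1 := Subtype.ext (by
          have h := qCoeff_sq_eq_one hg r.2 hM1
          rw [sq] at h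
          exact h)
        have h := residue_eq_of_goodRoot (hgood.mul hgood) (x := (1 : 𝒪))
          (by rw [map_one, ← map_mul, hA2, map_one])
        rw [map_one, mul_zero, map_zero] at h
        exact one_ne_zero h
      · exact relation_sq_new hg hMN hS hNS r hN2 hM1 f hf

include hne hc hNS hS hMN in
/-- The eigen part has rank at most two. -/
theorem finrank_goodPart_le_two
    (hloc : ∀ r : Nat.Primes, (r : ℕ) ∣ N →
      (M.factorization r = 1 ∧ N.factorization r = 1) ∨
      (M.factorization r = 0 ∧ N.factorization r = 1 ∧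
        a r ^ 2 ≠ ((r : ℕ) : ResidueField 𝒪)) ∨
      (M.factorization r ≤ 1 ∧ N.factorization r = 2 ∧ a r = 0 ∧
        ((r : ℕ) : ResidueField 𝒪) ≠ 0)) :
    Module.finrank 𝒪 (goodPart N a S c) ≤ 2 := by
  choose lam hlam using exists_opW_eq_smul hne hg hMN hS hNS σ hc hloc
  obtain ⟨Θ, hΘ, hop, -⟩ := exists_coord_mem (𝒪 := 𝒪) hg σ hc hne
  have hmem : ∀ v, Θ v ∈ kerSol (fullOps (N := N) fun r => σ (lam r)) := fun v =>
    mem_kerSol.mpr fun r => by
      rw [fullOps_apply_eq_zero, ← hop, hlam, map_smul, map_smul]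
  have h := LinearMap.finrank_le_finrank_of_injective (f := Θ.codRestrict _ hmem)
    fun u v huv => hΘ (congrArg Subtype.val huv)
  rw [Module.finrank_baseChange] at h
  exact h.trans (finrank_kerSol_fullOps_le (N := N) σ lam)

include hne hc hNS hS hMN in
omit [CharZero K] in
/-- At a prime with a single root, that root lies in `𝒪` and gives the action. -/
theorem exists_eq_smul_of_ne_bot (r : Nat.Primes)
    (hr : ¬ (r : ℕ) ∣ N ∨ (M.factorization r = 1 ∧ N.factorization r = 1))
    (hW : goodPart N a S c ≠ ⊥) :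
    ∃ d : 𝒪, algebraMap 𝒪 K d = σ (coefF hg.1 r) ∧ residue 𝒪 d = a r ∧
      ∀ x ∈ goodPart N a S c, (MvPolynomial.X r : HeckePoly 𝒪) • x = d • x := by
  have hop := opW_eq_smul_coefF hne hg hMN hS hNS σ hc r hr
  let b := Module.Free.chooseBasis 𝒪 (goodPart N a S c)
  obtain ⟨i₀⟩ : Nonempty (Module.Free.ChooseBasisIndex 𝒪 (goodPart N a S c)) := by
    have := (Submodule.nontrivial_iff_ne_bot).mpr hW
    exact b.index_nonempty
  have key : ∀ x i, algebraMap 𝒪 K (b.repr (opW S c r x) i) =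
      σ (coefF hg.1 r) * algebraMap 𝒪 K (b.repr x i) := by
    intro x i
    have h := congrArg (fun v => (b.baseChange K).repr v i) (hop (1 ⊗ₜ[𝒪] x))
    simp only [LinearMap.baseChange_tmul, map_smul, Finsupp.smul_apply, smul_eq_mul,
      Module.Basis.baseChange_repr_tmul] at h
    rwa [← Algebra.algebraMap_eq_smul_one, ← Algebra.algebraMap_eq_smul_one] at h
  refine ⟨b.repr (opW S c r (b i₀)) i₀, ?_, ?_, fun x hx => ?_⟩
  · rw [key, b.repr_self, Finsupp.single_eq_same, map_one, mul_one]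
  · have hd : algebraMap 𝒪 K (b.repr (opW S c r (b i₀)) i₀) = σ (coefF hg.1 r) := by
      rw [key, b.repr_self, Finsupp.single_eq_same, map_one, mul_one]
    obtain ⟨t, ht⟩ := residue_surjective (a r)
    rw [← ht]
    refine residue_eq_of_goodRoot (goodRoot_of_eigen c ht (v := 1 ⊗ₜ[𝒪] b i₀) ?_ (hop _)) hd
    rw [← Module.Basis.baseChange_apply]
    exact (b.baseChange K).ne_zero i₀
  · have h : opW S c r ⟨x, hx⟩ = b.repr (opW S c r (b i₀)) i₀ • (⟨x, hx⟩ : goodPart N a S c) :=
      b.repr.injective (Finsupp.ext fun i => FaithfulSMul.algebraMap_injective 𝒪 K (by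
        rw [key, map_smul, Finsupp.smul_apply, smul_eq_mul, map_mul, key (b i₀), b.repr_self,
          Finsupp.single_eq_same, map_one, mul_one]))
    exact congrArg Subtype.val h

end Fermat.Agent.Lifting.Mult
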