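import Fermat.Agent.Lifting.Mult.Bound

/-!
# Coefficient sequences of forms with prescribed Hecke eigenvalues outside a finite set

`qSeqs L` is the space of coefficient sequences of weight two cusp forms of level `Γ₀(L)` and
`goodSeqs S lam` the sequences which satisfy the relations of the eigenvalues `lam l` of `T_l` for
primes `l ∉ S`. If the system is that of `g` of level `M`, the relations at a prime `r ∈ S` follow:
a form of level `r ^ e L`, `r ∤ L`, satisfies the relation predicted by oldforms of `g`.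
-/

set_option autoImplicit false

noncomputable section

open ModularFormClass CongruenceSubgroup

namespace Fermat.Agent.Lifting.Mult

open Fermat.Agent.HeckeLift (qCoeff_add qCoeff_smul qCoeff_at_zero qCoeff_heckeTLin
  qCoeff_heckeULin)
open Fermat.Agent.Newforms (raise degen qCoeff_degen mkCuspForm)

/-- The coefficient map. -/
def coeffMap (L : ℕ) : CuspForm (Gamma0 L) 2 →ₗ[ℂ] (ℕ → ℂ) where
  toFun f := fun n => qCoeff ⇑f n
  map_add' f g := funext fun n => qCoeff_add f g n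
  map_smul' c f := funext fun n => qCoeff_smul c f n

/-- The coefficient sequence of a form. -/
@[simp] theorem coeffMap_apply {L : ℕ} (f : CuspForm (Gamma0 L) 2) (n : ℕ) :
    coeffMap L f n = qCoeff ⇑f n := rfl

/-- Coefficient sequences of forms of level `L`. -/
def qSeqs (L : ℕ) : Submodule ℂ (ℕ → ℂ) := LinearMap.range (coeffMap L)

/-- `a ↦ (a (n r))ₙ`. -/
def dil (r : ℕ) : (ℕ → ℂ) →ₗ[ℂ] (ℕ → ℂ) where
  toFun a := fun n => a (n * r)
  map_add' _ _ := rfl
  map_smul' _ _ := rfl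

/-- The values of `dil`. -/
@[simp] theorem dil_apply (r : ℕ) (a : ℕ → ℂ) (n : ℕ) : dil r a n = a (n * r) := rfl

/-- `a ↦ (a (n / r))ₙ`, extended by zero. -/
def sh (r : ℕ) : (ℕ → ℂ) →ₗ[ℂ] (ℕ → ℂ) where
  toFun a := fun n => if r ∣ n then a (n / r) else 0
  map_add' a b := funext fun n => by by_cases h : r ∣ n <;> simp [h]
  map_smul' c a := funext fun n => by by_cases h : r ∣ n <;> simp [h]

@[simp] theorem sh_apply (r : ℕ) (a : ℕ → ℂ) (n : ℕ) :
    sh r a n = if r ∣ n then a (n / r) else 0 := rfl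

/-- Removing the coefficients of index divisible by a member of `D`. -/
def strip (D : Finset ℕ) : (ℕ → ℂ) →ₗ[ℂ] (ℕ → ℂ) where
  toFun a := fun n => if ∀ q ∈ D, ¬ q ∣ n then a n else 0
  map_add' a b := funext fun n => by simp only [Pi.add_apply]; split_ifs <;> simp
  map_smul' c a := funext fun n => by by_cases h : ∀ q ∈ D, ¬ q ∣ n <;> simp [h]

@[simp] theorem strip_apply (D : Finset ℕ) (a : ℕ → ℂ) (n : ℕ) :
    strip D a n = if ∀ q ∈ D, ¬ q ∣ n then a n else 0 := rfl

/-- The Hecke relation at `l`. -/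
def hop (l : ℕ) : (ℕ → ℂ) →ₗ[ℂ] (ℕ → ℂ) := dil l + (l : ℂ) • sh l

/-- The values of `hop`. -/
theorem hop_apply (l : ℕ) (a : ℕ → ℂ) (n : ℕ) :
    hop l a n = a (n * l) + if l ∣ n then (l : ℂ) * a (n / l) else 0 := by
  by_cases h : l ∣ n <;> simp [hop, h]

/-- Sequences with the eigenvalues `lam l` at the primes `l ∉ S`. -/
def goodSeqs (S : Finset ℕ) (lam : ℕ → ℂ) : Submodule ℂ (ℕ → ℂ) where
  carrier := {a | ∀ l : ℕ, l.Prime → l ∉ S → hop l a = lam l • a}
  add_mem' ha hb l hl hlS := by rw [map_add, ha l hl hlS, hb l hl hlS, smul_add]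
  zero_mem' l _ _ := by rw [map_zero, smul_zero]
  smul_mem' c a ha l hl hlS := by rw [map_smul, ha l hl hlS, smul_comm]

variable {L : ℕ} {S : Finset ℕ} {lam : ℕ → ℂ}

theorem qSeqs_apply_zero [NeZero L] {a : ℕ → ℂ} (ha : a ∈ qSeqs L) : a 0 = 0 := by
  obtain ⟨f, rfl⟩ := ha
  exact qCoeff_at_zero f

theorem mem_qSeqs_of_dvd [NeZero L] {L' : ℕ} [NeZero L'] (h : L ∣ L') {a : ℕ → ℂ}
    (ha : a ∈ qSeqs L) : a ∈ qSeqs L' := by
  obtain ⟨f, rfl⟩ := ha
  exact ⟨raise L' h f, rfl⟩

theorem dil_mem_qSeqs [NeZero L] {r : ℕ} (hr : r.Prime) (hrL : r ∣ L) {a : ℕ → ℂ}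
    (ha : a ∈ qSeqs L) : dil r a ∈ qSeqs L := by
  obtain ⟨f, rfl⟩ := ha
  exact ⟨CuspForm.heckeULin 2 hrL f, funext fun n => qCoeff_heckeULin hr hrL f n⟩

/-- `dil r` lowers the level from `r L` to `L` when `r ∣ L`. -/
theorem dil_mem_qSeqs_of_mul [NeZero L] {r : ℕ} (hr : r.Prime) (hrL : r ∣ L) {a : ℕ → ℂ}
    (ha : a ∈ qSeqs (r * L)) : dil r a ∈ qSeqs L := by
  have : NeZero r := ⟨hr.ne_zero⟩
  obtain ⟨f, rfl⟩ := ha
  refine ⟨mkCuspForm L 2 (ModularForm.heckeU 2 r ⇑f)
    (Newforms.isCuspidalFun_coe (CuspForm.heckeULin 2 (dvd_mul_right r L) f))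
    (Newforms.heckeU_slash_of_dvd 2 hr hrL (Newforms.slash_eq_coe f)), funext fun n => ?_⟩
  exact qCoeff_heckeULin hr (dvd_mul_right r L) f n

theorem sh_mem_qSeqs [NeZero L] {r : ℕ} (hr : r.Prime) {a : ℕ → ℂ} (ha : a ∈ qSeqs L) :
    sh r a ∈ qSeqs (r * L) := by
  have : NeZero r := ⟨hr.ne_zero⟩
  obtain ⟨f, rfl⟩ := ha
  refine ⟨(r : ℂ)⁻¹ • degen r f, funext fun n => ?_⟩
  have hr' : (r : ℂ) ≠ 0 := by exact_mod_cast hr.ne_zero
  rw [coeffMap_apply, qCoeff_smul, qCoeff_degen, sh_apply]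
  by_cases h : r ∣ n
  · simp [h, hr']
  · simp [h]

theorem hop_mem_qSeqs [NeZero L] {r : ℕ} (hr : r.Prime) (hrL : ¬ r ∣ L) {a : ℕ → ℂ}
    (ha : a ∈ qSeqs L) : hop r a ∈ qSeqs L := by
  obtain ⟨f, rfl⟩ := ha
  refine ⟨CuspForm.heckeTLin 2 hr hrL f, funext fun n => ?_⟩
  rw [coeffMap_apply, qCoeff_heckeTLin, hop_apply]
  norm_num

theorem eq_zero_of_supported_seq [NeZero L] {r : ℕ} (hr : r.Prime) (hrL : ¬ r ∣ L) {a : ℕ → ℂ}
    (ha : a ∈ qSeqs L) (hsupp : ∀ n, ¬ r ∣ n → a n = 0) : a = 0 := by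
  obtain ⟨f, rfl⟩ := ha
  rw [eq_zero_of_supported hr hrL f hsupp, map_zero]

theorem dil_mem_qSeqs_of_supported [NeZero L] {r : ℕ} (hr : r.Prime) {a : ℕ → ℂ}
    (ha : a ∈ qSeqs (r * L)) (hsupp : ∀ n, ¬ r ∣ n → a n = 0) : dil r a ∈ qSeqs L := by
  have : NeZero r := ⟨hr.ne_zero⟩
  obtain ⟨f, rfl⟩ := ha
  obtain ⟨F, hF⟩ := exists_eq_degen_of_supported hr f hsupp
  refine ⟨(r : ℂ) • F, funext fun n => ?_⟩
  rw [coeffMap_apply, qCoeff_smul, dil_apply, coeffMap_apply, mul_comm n r, hF]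

theorem eq_zero_of_hop_eq [NeZero L] {r : ℕ} (hr : r.Prime) (hrL : ¬ r ∣ L) {ε : ℂ}
    (hε : ε = 1 ∨ ε = -1) {a : ℕ → ℂ} (ha : a ∈ qSeqs L)
    (h : hop r a = (ε * ((r : ℂ) + 1)) • a) : a = 0 := by
  obtain ⟨f, rfl⟩ := ha
  rw [eq_zero_of_heckeT_eq hr hrL hε f (Newforms.eq_of_qCoeff fun n => ?_), map_zero]
  have h' := congrFun h n
  simp only [hop_apply, Pi.smul_apply, coeffMap_apply, smul_eq_mul] at h'
  rw [qCoeff_heckeTLin, qCoeff_smul, ← h']
  norm_num

/-- The level needed to strip the primes of `D`. -/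
def stripLevel (D : Finset ℕ) : ℕ := ∏ q ∈ D, q ^ 2

theorem stripLevel_ne_zero {D : Finset ℕ} (hD : ∀ q ∈ D, q.Prime) : stripLevel D ≠ 0 :=
  Finset.prod_ne_zero_iff.mpr fun q hq => pow_ne_zero _ (hD q hq).ne_zero

theorem not_dvd_stripLevel {D : Finset ℕ} (hD : ∀ q ∈ D, q.Prime) {r : ℕ} (hr : r.Prime)
    (hrD : r ∉ D) : ¬ r ∣ stripLevel D := fun h => by
  obtain ⟨q, hq, hqr⟩ := hr.prime.exists_mem_finset_dvd h
  exact hrD (((Nat.prime_dvd_prime_iff_eq hr (hD q hq)).mp (hr.dvd_of_dvd_pow hqr)) ▸ hq)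

theorem strip_mem_qSeqs [NeZero L] {D : Finset ℕ} (hD : ∀ q ∈ D, q.Prime) {a : ℕ → ℂ}
    (ha : a ∈ qSeqs L) : strip D a ∈ qSeqs (L * stripLevel D) := by
  classical
  induction D using Finset.induction_on with
  | empty =>
    have : strip ∅ a = a := funext fun n => by simp
    simpa [this, stripLevel] using ha
  | insert q D hqD ih =>
    have hq := hD q (Finset.mem_insert_self _ _)
    have hD' : ∀ x ∈ D, x.Prime := fun x hx => hD x (Finset.mem_insert_of_mem hx)
    have := ih hD'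
    set L₁ := L * stripLevel D
    have : NeZero L₁ := ⟨mul_ne_zero (NeZero.ne L) (stripLevel_ne_zero hD')⟩
    have : NeZero q := ⟨hq.ne_zero⟩
    set b := strip D a
    have h2 : dil q b ∈ qSeqs (q * L₁) :=
      dil_mem_qSeqs hq (dvd_mul_right q L₁) (mem_qSeqs_of_dvd (dvd_mul_left L₁ q) (ih hD'))
    have h3 := sh_mem_qSeqs hq h2
    have heq : strip (insert q D) a = b - sh q (dil q b) := by
      funext n
      simp only [Pi.sub_apply, sh_apply, dil_apply, strip_apply, b, Finset.forall_mem_insert]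
      by_cases hn : q ∣ n
      · rw [if_pos hn, Nat.div_mul_cancel hn, sub_self, if_neg (fun h => h.1 hn)]
      · simp [hn]
    have hlev : L * stripLevel (insert q D) = q * (q * L₁) := by
      rw [stripLevel, Finset.prod_insert hqD]
      simp only [L₁, stripLevel]
      ring
    rw [heq, hlev]
    exact sub_mem (mem_qSeqs_of_dvd ((dvd_mul_left _ _).trans (dvd_mul_left _ _)) (ih hD')) h3

/-- A prime other than `r` not dividing `n` does not divide `n r`. -/
theorem not_dvd_mul_prime {r q n : ℕ} (hr : r.Prime) (hq : q.Prime) (hne : q ≠ r)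
    (hn : ¬ q ∣ n) : ¬ q ∣ n * r := fun h =>
  (hq.dvd_mul.mp h).elim hn fun h' => hne ((Nat.prime_dvd_prime_iff_eq hq hr).mp h')

theorem strip_dil {D : Finset ℕ} (hD : ∀ q ∈ D, q.Prime) {r : ℕ} (hr : r.Prime) (hrD : r ∉ D)
    (a : ℕ → ℂ) : strip D (dil r a) = dil r (strip D a) := by
  funext n
  simp only [strip_apply, dil_apply]
  refine if_congr ⟨fun h q hq => ?_, fun h q hq hd => h q hq (hd.mul_right r)⟩ rfl rfl
  exact not_dvd_mul_prime hr (hD q hq) (fun e => hrD (e ▸ hq)) (h q hq)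

theorem strip_sh {D : Finset ℕ} (hD : ∀ q ∈ D, q.Prime) {r : ℕ} (hr : r.Prime) (hrD : r ∉ D)
    (a : ℕ → ℂ) : strip D (sh r a) = sh r (strip D a) := by
  funext n
  simp only [strip_apply, sh_apply]
  by_cases hn : r ∣ n
  · obtain ⟨t, rfl⟩ := hn
    rw [if_pos (dvd_mul_right r t), if_pos (dvd_mul_right r t), Nat.mul_div_cancel_left _ hr.pos]
    refine if_congr ⟨fun h q hq hd => h q hq (hd.mul_left r), fun h q hq => ?_⟩ rfl rfl
    rw [mul_comm]
    exact not_dvd_mul_prime hr (hD q hq) (fun e => hrD (e ▸ hq)) (h q hq)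
  · simp [hn]

theorem strip_hop {D : Finset ℕ} (hD : ∀ q ∈ D, q.Prime) {r : ℕ} (hr : r.Prime) (hrD : r ∉ D)
    (a : ℕ → ℂ) : strip D (hop r a) = hop r (strip D a) := by
  simp only [hop, LinearMap.add_apply, LinearMap.smul_apply, map_add, map_smul,
    strip_dil hD hr hrD, strip_sh hD hr hrD]

theorem strip_strip (D : Finset ℕ) (a : ℕ → ℂ) : strip D (strip D a) = strip D a := by
  funext n
  simp only [strip_apply]
  split_ifs <;> rfl

/-- `hop l` commutes with `dil r` for distinct primes. -/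
theorem hop_dil {l r : ℕ} (hl : l.Prime) (hr : r.Prime) (hne : l ≠ r) (a : ℕ → ℂ) :
    hop l (dil r a) = dil r (hop l a) := by
  funext n
  simp only [hop_apply, dil_apply, mul_right_comm n l r]
  congr 1
  by_cases h : l ∣ n
  · rw [if_pos h, if_pos (h.mul_right r), Nat.mul_comm n r, Nat.mul_div_assoc r h, mul_comm r]
  · rw [if_neg h, if_neg (not_dvd_mul_prime hr hl hne h)]

theorem hop_sh {l r : ℕ} (hl : l.Prime) (hr : r.Prime) (hne : l ≠ r) (a : ℕ → ℂ) :
    hop l (sh r a) = sh r (hop l a) := by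
  funext n
  simp only [hop_apply, sh_apply]
  by_cases hrn : r ∣ n
  · obtain ⟨t, rfl⟩ := hrn
    rw [if_pos ((dvd_mul_right r t).mul_right l), if_pos (dvd_mul_right r t), mul_assoc,
      Nat.mul_div_cancel_left _ hr.pos, Nat.mul_div_cancel_left _ hr.pos]
    congr 1
    by_cases hlt : l ∣ t
    · obtain ⟨u, rfl⟩ := hlt
      rw [if_pos ((dvd_mul_right l u).mul_left r), if_pos (dvd_mul_right l u),
        show r * (l * u) = l * (r * u) by ring, Nat.mul_div_cancel_left _ hl.pos,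
        if_pos (dvd_mul_right r u), Nat.mul_div_cancel_left _ hr.pos,
        Nat.mul_div_cancel_left _ hl.pos]
    · rw [if_neg hlt, if_neg (by rw [mul_comm]; exact not_dvd_mul_prime hr hl hne hlt)]
  · rw [if_neg hrn, if_neg (not_dvd_mul_prime hl hr (Ne.symm hne) hrn), zero_add]
    by_cases hln : l ∣ n
    · rw [if_pos hln, if_neg (fun h => hrn (h.trans (Nat.div_dvd_of_dvd hln))), mul_zero]
    · rw [if_neg hln]

/-- The operators `hop` at distinct primes commute. -/
theorem hop_hop {l r : ℕ} (hl : l.Prime) (hr : r.Prime) (hne : l ≠ r) (a : ℕ → ℂ) :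
    hop l (hop r a) = hop r (hop l a) := by
  conv_lhs => rw [hop.eq_def r, LinearMap.add_apply, LinearMap.smul_apply, map_add, map_smul,
    hop_dil hl hr hne, hop_sh hl hr hne]
  rw [hop.eq_def r, LinearMap.add_apply, LinearMap.smul_apply]

section Good

variable (hS : ∀ q ∈ S, q.Prime) {r : ℕ} (hr : r.Prime) (hrS : r ∈ S)

include hrS in
/-- `dil r` preserves the good eigen-sequences. -/
theorem dil_mem_goodSeqs (hr : r.Prime) {a : ℕ → ℂ} (ha : a ∈ goodSeqs S lam) :
    dil r a ∈ goodSeqs S lam := fun l hl hlS => by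
  rw [hop_dil hl hr (fun e => hlS (e ▸ hrS)), ha l hl hlS, map_smul]

include hrS in
theorem hop_mem_goodSeqs (hr : r.Prime) {a : ℕ → ℂ} (ha : a ∈ goodSeqs S lam) :
    hop r a ∈ goodSeqs S lam := fun l hl hlS => by
  rw [hop_hop hl hr (fun e => hlS (e ▸ hrS)), ha l hl hlS, map_smul]

theorem strip_mem_goodSeqs {D : Finset ℕ} (hDS : D ⊆ S) (hD : ∀ q ∈ D, q.Prime) {a : ℕ → ℂ}
    (ha : a ∈ goodSeqs S lam) : strip D a ∈ goodSeqs S lam := fun l hl hlS => by
  rw [← strip_hop hD hl (fun e => hlS (hDS e)), ha l hl hlS, map_smul]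

/-- Sequences of the same system are proportional at the indices prime to `S`. -/
theorem good_mul_eq {a b : ℕ → ℂ} (ha : a ∈ goodSeqs S lam) (hb : b ∈ goodSeqs S lam)
    (ha0 : a 0 = 0) (hb0 : b 0 = 0) :
    ∀ n, (∀ q ∈ S, ¬ q ∣ n) → b 1 * a n = a 1 * b n := by
  intro n
  induction n using Nat.strong_induction_on with
  | _ n ih =>
    intro hn
    rcases Nat.lt_or_ge n 2 with h2 | h2
    · interval_cases n
      · rw [ha0, hb0, mul_zero, mul_zero]
      · exact mul_comm _ _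
    · obtain ⟨l, hl, m, rfl⟩ := Nat.exists_prime_and_dvd (show n ≠ 1 by omega)
      have hm : 0 < m := Nat.pos_of_ne_zero fun h => by simp [h] at h2
      have hlS : l ∉ S := fun h => hn l h (dvd_mul_right l m)
      have hlt : m < l * m := lt_mul_of_one_lt_left hm hl.one_lt
      have hmS : ∀ q ∈ S, ¬ q ∣ m := fun q hq h => hn q hq (h.mul_left l)
      have e1 := congrFun (ha l hl hlS) m
      have e2 := congrFun (hb l hl hlS) m
      rw [hop_apply, Pi.smul_apply, smul_eq_mul, mul_comm m l] at e1 e2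
      have h1 := ih m hlt hmS
      by_cases hd : l ∣ m
      · rw [if_pos hd] at e1 e2
        have h3 := ih (m / l) ((Nat.div_le_self m l).trans_lt hlt)
          (fun q hq h => hmS q hq (h.trans (Nat.div_dvd_of_dvd hd)))
        linear_combination (b 1) * e1 - (a 1) * e2 + (lam l) * h1 - (l : ℂ) * h3
      · rw [if_neg hd, add_zero] at e1 e2
        linear_combination (b 1) * e1 - (a 1) * e2 + (lam l) * h1

include hS in
theorem strip_one {a : ℕ → ℂ} : strip (S.erase r) a 1 = a 1 := by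
  rw [strip_apply, if_pos]
  exact fun q hq h => (hS q (Finset.mem_of_mem_erase hq)).not_dvd_one h

include hS hr in
theorem strip_pow {a : ℕ → ℂ} (e : ℕ) : strip (S.erase r) a (r ^ e) = a (r ^ e) := by
  rw [strip_apply, if_pos]
  intro q hq h
  exact Finset.ne_of_mem_erase hq ((Nat.prime_dvd_prime_iff_eq (hS q (Finset.mem_of_mem_erase hq)) hr).mp
    ((hS q (Finset.mem_of_mem_erase hq)).dvd_of_dvd_pow h))

include hS hr in
theorem strip_self_mul {a : ℕ → ℂ} : strip (S.erase r) a (r * r) = a (r * r) := by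
  rw [← sq]; exact strip_pow hS hr 2

include hS hr in
theorem strip_self {a : ℕ → ℂ} : strip (S.erase r) a r = a r := by
  simpa using strip_pow hS hr (a := a) 1

/-- The combination with vanishing first coefficient is supported on multiples of `r`. -/
theorem strip_sub_supported {a b : ℕ → ℂ} (ha : a ∈ goodSeqs S lam) (hb : b ∈ goodSeqs S lam)
    (ha0 : a 0 = 0) (hb0 : b 0 = 0) (hb1 : b 1 = 1) (n : ℕ) (hn : ¬ r ∣ n) :
    (strip (S.erase r) a - a 1 • strip (S.erase r) b) n = 0 := by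
  simp only [Pi.sub_apply, Pi.smul_apply, smul_eq_mul, strip_apply]
  split_ifs with h
  · have := good_mul_eq ha hb ha0 hb0 n fun q hq => by
      by_cases hqr : q = r
      · exact hqr ▸ hn
      · exact h q (Finset.mem_erase.mpr ⟨hqr, hq⟩)
    rw [hb1, one_mul] at this
    rw [this, sub_self]
  · rw [mul_zero, sub_zero]

include hS hr in
/-- Two systems of level prime to `r` agree after stripping the other primes of `S`. -/
theorem strip_eq_smul {La Lb : ℕ} [NeZero La] [NeZero Lb] (hra : ¬ r ∣ La) (hrb : ¬ r ∣ Lb)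
    {a b : ℕ → ℂ} (ha : a ∈ qSeqs La) (ha' : a ∈ goodSeqs S lam) (hb : b ∈ qSeqs Lb)
    (hb' : b ∈ goodSeqs S lam) (hb1 : b 1 = 1) :
    strip (S.erase r) a = a 1 • strip (S.erase r) b := by
  set D := S.erase r
  have hD : ∀ q ∈ D, q.Prime := fun q hq => hS q (Finset.mem_of_mem_erase hq)
  have : NeZero (stripLevel D) := ⟨stripLevel_ne_zero hD⟩
  refine sub_eq_zero.mp (eq_zero_of_supported_seq (L := La * Lb * stripLevel D) hr ?_ ?_
    (strip_sub_supported ha' hb' (qSeqs_apply_zero ha) (qSeqs_apply_zero hb) hb1))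
  · intro h
    rcases hr.dvd_mul.mp h with h | h
    · exact (hr.dvd_mul.mp h).elim hra hrb
    · exact not_dvd_stripLevel hD hr (Finset.notMem_erase r S) h
  · exact sub_mem (mem_qSeqs_of_dvd (mul_dvd_mul_right (dvd_mul_right La Lb) _)
      (strip_mem_qSeqs hD ha))
      (Submodule.smul_mem _ _ (mem_qSeqs_of_dvd (mul_dvd_mul_right (dvd_mul_left Lb La) _)
        (strip_mem_qSeqs hD hb)))

include hS hr in
/-- The relation at a prime dividing neither level. -/
theorem coeff_eq_of_not_dvd {M : ℕ} [NeZero L] [NeZero M] (hrL : ¬ r ∣ L) (hrM : ¬ r ∣ M)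
    {a g : ℕ → ℂ} (ha : a ∈ qSeqs L) (ha' : a ∈ goodSeqs S lam) (hg : g ∈ qSeqs M)
    (hg' : g ∈ goodSeqs S lam) (hg1 : g 1 = 1) {A : ℂ} (hgr : hop r g = A • g) :
    a r = A * a 1 := by
  have h := congrFun (strip_eq_smul hS hr hrL hrM ha ha' hg hg' hg1) r
  rw [Pi.smul_apply, smul_eq_mul, strip_self hS hr, strip_self hS hr] at h
  have h1 := congrFun hgr 1
  rw [hop_apply, if_neg hr.not_dvd_one, one_mul, add_zero, Pi.smul_apply, smul_eq_mul, hg1,
    mul_one] at h1
  rw [h, h1, mul_comm]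

include hS hr hrS in
/-- The relation at a prime dividing the level once and not the level of `g`. -/
theorem coeff_quadratic_of_dvd {M : ℕ} [NeZero L] [NeZero M] (hrL : ¬ r ∣ L) (hrM : ¬ r ∣ M)
    {a g : ℕ → ℂ} (ha : a ∈ qSeqs (r * L)) (ha' : a ∈ goodSeqs S lam) (hg : g ∈ qSeqs M)
    (hg' : g ∈ goodSeqs S lam) (hg1 : g 1 = 1) {A : ℂ} (hgr : hop r g = A • g) :
    a (r * r) - A * a r + (r : ℂ) * a 1 = 0 := by
  set D := S.erase r
  have hD : ∀ q ∈ D, q.Prime := fun q hq => hS q (Finset.mem_of_mem_erase hq)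
  have : NeZero (stripLevel D) := ⟨stripLevel_ne_zero hD⟩
  have : NeZero r := ⟨hr.ne_zero⟩
  set φ := strip D a - a 1 • strip D g
  set L' := L * M * stripLevel D
  have hrL' : ¬ r ∣ L' := fun h => by
    rcases hr.dvd_mul.mp h with h | h
    · exact (hr.dvd_mul.mp h).elim hrL hrM
    · exact not_dvd_stripLevel hD hr (Finset.notMem_erase r S) h
  have hφ : φ ∈ qSeqs (r * L') := sub_mem
    (mem_qSeqs_of_dvd (by rw [← mul_assoc, ← mul_assoc]; exact mul_dvd_mul_right (dvd_mul_right _ M) _)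
      (strip_mem_qSeqs hD ha))
    (Submodule.smul_mem _ _ (mem_qSeqs_of_dvd
      ((mul_dvd_mul_right (dvd_mul_left M L) _).trans (dvd_mul_left _ r)) (strip_mem_qSeqs hD hg)))
  set G := dil r φ
  have hG : G ∈ qSeqs L' := dil_mem_qSeqs_of_supported hr hφ
    (strip_sub_supported ha' hg' (qSeqs_apply_zero ha) (qSeqs_apply_zero hg) hg1)
  have hG' : G ∈ goodSeqs S lam := dil_mem_goodSeqs hrS hr (sub_mem
    (strip_mem_goodSeqs (Finset.erase_subset r S) hD ha')
    (Submodule.smul_mem _ _ (strip_mem_goodSeqs (Finset.erase_subset r S) hD hg')))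
  have hGr := coeff_eq_of_not_dvd hS hr hrL' hrM hG hG' hg hg' hg1 hgr
  have h1 := congrFun hgr 1
  have h2 := congrFun hgr r
  rw [hop_apply, if_neg hr.not_dvd_one, one_mul, add_zero, Pi.smul_apply, smul_eq_mul, hg1,
    mul_one] at h1
  rw [hop_apply, if_pos dvd_rfl, Nat.div_self hr.pos, Pi.smul_apply, smul_eq_mul, hg1,
    mul_one] at h2
  simp only [G, φ, dil_apply, one_mul, Pi.sub_apply, Pi.smul_apply, smul_eq_mul,
    strip_self hS hr, strip_self_mul hS hr, D] at hGr
  linear_combination hGr + (a 1) * h2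

include hS hr hrS in
/-- The relation at a prime dividing both levels once, when `a_r(g) ^ 2 = 1`. -/
theorem coeff_linear_of_dvd {M : ℕ} [NeZero L] [NeZero M] (hrL : ¬ r ∣ L) (hrM : ¬ r ∣ M)
    {a g : ℕ → ℂ} (ha : a ∈ qSeqs (r * L)) (ha' : a ∈ goodSeqs S lam) (hg : g ∈ qSeqs (r * M))
    (hg' : g ∈ goodSeqs S lam) (hg1 : g 1 = 1) {B : ℂ} (hgr : dil r g = B • g)
    (hB : B ^ 2 = 1) : a r = B * a 1 := by
  set D := S.erase r
  have hD : ∀ q ∈ D, q.Prime := fun q hq => hS q (Finset.mem_of_mem_erase hq)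
  have hrD : r ∉ D := Finset.notMem_erase r S
  have hDS : D ⊆ S := Finset.erase_subset r S
  have : NeZero (stripLevel D) := ⟨stripLevel_ne_zero hD⟩
  have : NeZero r := ⟨hr.ne_zero⟩
  set φ := strip D a - a 1 • strip D g
  set L' := L * M * stripLevel D
  have hrL' : ¬ r ∣ L' := fun h => by
    rcases hr.dvd_mul.mp h with h | h
    · exact (hr.dvd_mul.mp h).elim hrL hrM
    · exact not_dvd_stripLevel hD hr hrD h
  have hφ : φ ∈ qSeqs (r * L') := sub_mem
    (mem_qSeqs_of_dvd (by rw [← mul_assoc, ← mul_assoc]; exact mul_dvd_mul_right (dvd_mul_right _ M) _)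
      (strip_mem_qSeqs hD ha))
    (Submodule.smul_mem _ _ (mem_qSeqs_of_dvd
      (by
        rw [show r * L' = L * (r * M * stripLevel D) by ring]
        exact dvd_mul_left _ _) (strip_mem_qSeqs hD hg)))
  set G := dil r φ
  have hG : G ∈ qSeqs L' := dil_mem_qSeqs_of_supported hr hφ
    (strip_sub_supported ha' hg' (qSeqs_apply_zero ha) (qSeqs_apply_zero hg) hg1)
  have hG' : G ∈ goodSeqs S lam := dil_mem_goodSeqs hrS hr (sub_mem
    (strip_mem_goodSeqs hDS hD ha')
    (Submodule.smul_mem _ _ (strip_mem_goodSeqs hDS hD hg')))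
  have hgr1 : g r = B := by
    have h := congrFun hgr 1
    rwa [dil_apply, one_mul, Pi.smul_apply, smul_eq_mul, hg1, mul_one] at h
  by_contra hne
  have hG1 : G 1 ≠ 0 := by
    simp only [G, φ, dil_apply, one_mul, Pi.sub_apply, Pi.smul_apply, smul_eq_mul,
      strip_self hS hr, hgr1, D]
    intro h
    exact hne (by linear_combination h)
  -- the same system at a level prime to `r`
  set e := strip D ((G 1)⁻¹ • G)
  set L₂ := L' * stripLevel D
  have hrL₂ : ¬ r ∣ L₂ := fun h =>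
    (hr.dvd_mul.mp h).elim hrL' (not_dvd_stripLevel hD hr hrD)
  have he : e ∈ qSeqs L₂ := strip_mem_qSeqs hD (Submodule.smul_mem _ _ hG)
  have he' : e ∈ goodSeqs S lam := strip_mem_goodSeqs hDS hD (Submodule.smul_mem _ _ hG')
  have he1 : e 1 = 1 := by
    show strip (S.erase r) _ 1 = 1
    rw [strip_one hS, Pi.smul_apply, smul_eq_mul, inv_mul_cancel₀ hG1]
  set L₃ := M * stripLevel D * L₂
  have hrL₃ : ¬ r ∣ L₃ := fun h => by
    rcases hr.dvd_mul.mp h with h | h
    · exact (hr.dvd_mul.mp h).elim hrM (not_dvd_stripLevel hD hr hrD)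
    · exact hrL₂ h
  set ψ := strip D g - g 1 • e
  have hψ : ψ ∈ qSeqs (r * L₃) := sub_mem
    (mem_qSeqs_of_dvd (by
        rw [show r * L₃ = r * M * stripLevel D * L₂ by simp only [L₃]; ring]
        exact dvd_mul_right _ _) (strip_mem_qSeqs hD hg))
    (Submodule.smul_mem _ _ (mem_qSeqs_of_dvd ((dvd_mul_left L₂ _).trans (dvd_mul_left _ r)) he))
  set H := dil r ψ
  have hψsupp : ∀ n, ¬ r ∣ n → ψ n = 0 := by
    have h := strip_sub_supported (r := r) hg' he' (qSeqs_apply_zero hg) (qSeqs_apply_zero he) he1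
    have hsse : strip D e = e := strip_strip D _
    rwa [show S.erase r = D from rfl, hsse] at h
  have hH : H ∈ qSeqs L₃ := dil_mem_qSeqs_of_supported hr hψ hψsupp
  have hH' : H ∈ goodSeqs S lam := dil_mem_goodSeqs hrS hr (sub_mem
    (strip_mem_goodSeqs hDS hD hg') (Submodule.smul_mem _ _ he'))
  have hse : strip D e = e := strip_strip D _
  have hT : hop r e = hop r e 1 • e := by
    have h := strip_eq_smul hS hr hrL₂ hrL₂ (hop_mem_qSeqs hr hrL₂ he)
      (hop_mem_goodSeqs hrS hr he') he he' he1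
    rwa [strip_hop hD hr hrD, hse] at h
  have hHe := congrFun (strip_eq_smul hS hr hrL₃ hrL₂ hH hH' he he' he1) r
  set A := hop r e 1 with hA
  have her : e r = A := by rw [hA, hop_apply, if_neg hr.not_dvd_one, one_mul, add_zero]
  have herr : e (r * r) = A * A - r := by
    have h := congrFun hT r
    rw [hop_apply, if_pos dvd_rfl, Nat.div_self hr.pos, Pi.smul_apply, smul_eq_mul, he1,
      her] at h
    linear_combination h
  have hgrr : g (r * r) = B * B := by
    have h := congrFun hgr r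
    rwa [dil_apply, Pi.smul_apply, smul_eq_mul, hgr1] at h
  simp only [H, ψ, dil_apply, one_mul, Pi.sub_apply, Pi.smul_apply, smul_eq_mul, hse, hg1,
    strip_self hS hr, strip_self_mul hS hr, D, hgr1, her, herr, hgrr] at hHe
  have hAB : A = B * ((r : ℂ) + 1) := by linear_combination -B * hHe - (A - B) * hB
  have hε : B = 1 ∨ B = -1 := by
    rcases mul_eq_zero.mp (show (B - 1) * (B + 1) = 0 by linear_combination hB) with h | h
    · exact Or.inl (by linear_combination h)
    · exact Or.inr (by linear_combination h)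
  have he0 := eq_zero_of_hop_eq hr hrL₂ hε he (hAB ▸ hT)
  rw [he0] at he1
  exact zero_ne_one he1

end Good

end Fermat.Agent.Lifting.Mult
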